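import Fermat.Agent.RT.TWInertiaDef
import Fermat.Agent.RT.Wiring.Defs

/-!
# TW-level assembly (helper57): the interface

* `TWSet` : Taylor–Wiles primes of level `n` (with chosen places, Frobenius elements, eigenvalues);
* `TWHecke` : the Hecke side input at one Taylor–Wiles level;
* `TWInput` : the Hecke side input at all levels.
-/

set_option autoImplicit false

open IsLocalRing Polynomial

namespace Fermat.Agent.RT.TW

open Fermat.Agent.UDef Fermat.Agent.RT.TWInertia Fermat.Agent.RT.Wiring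

/-- Taylor–Wiles primes of level `n`: `r` primes `q i ∉ S`, `p ^ a i ∥ q i - 1`, `n < a i`,
a place `P i` over `q i`, a Frobenius `φ i` at `P i` with distinct residual eigenvalues `α i`,
`β i`. -/
structure TWSet {k : Type} [Field k] (ρbar : ResidualGaloisRep k) (p : ℕ) (S : Finset ℕ)
    (n r : ℕ) where
  /-- the primes -/
  q : Fin r → ℕ
  q_injective : Function.Injective q
  prime : ∀ i, (q i).Prime
  not_mem : ∀ i, q i ∉ S
  /-- the exponents -/
  a : Fin r → ℕ
  lt_a : ∀ i, n < a i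
  dvd : ∀ i, p ^ a i ∣ q i - 1
  not_dvd : ∀ i, ¬ p ^ (a i + 1) ∣ q i - 1
  /-- the places -/
  P : Fin r → ValuationSubring (AlgebraicClosure ℚ)
  liesOver : ∀ i, (P i).LiesOverPrime (q i)
  /-- the Frobenius elements -/
  φ : Fin r → (AlgebraicClosure ℚ ≃ₐ[ℚ] AlgebraicClosure ℚ)
  isFrobenius : ∀ i, (P i).IsFrobeniusAt (φ i) (q i)
  /-- eigenvalues of Frobenius -/
  α : Fin r → k
  /-- eigenvalues of Frobenius -/
  β : Fin r → k
  α_ne_β : ∀ i, α i ≠ β i
  charpoly : ∀ i, LinearMap.charpoly (ρbar.ρ (φ i)) = (X - C (α i)) * (X - C (β i))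

/-- **The Hecke side input at one Taylor–Wiles level.** `R'` is the deformation ring of level `Q`,
`g i : R'` the inertia elements, `R` the deformation ring of the base level, `πR : R' → R` the
canonical map, `M` the Hecke module of the base level. -/
structure TWHecke (𝒪 : Type) [CommRing 𝒪] (p : ℕ) {r : ℕ} (a : Fin r → ℕ)
    {R' : Type} [CommRing R'] [Algebra 𝒪 R'] (g : Fin r → R')
    {R : Type} [CommRing R] [Algebra 𝒪 R] (πR : R' →ₐ[𝒪] R)
    (M : Type) [AddCommGroup M] [Module R M] : Type 1 where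
  /-- the Hecke module of level `Q` -/
  M' : Type
  [instAddCommGroup : AddCommGroup M']
  [instModule : Module 𝒪 M']
  [instModuleR : Module R' M']
  [instIsScalarTower : IsScalarTower 𝒪 R' M']
  /-- the group of diamonds: the internal direct product of the cyclic groups `⟨δ i⟩` of order
  `p ^ a i` -/
  Δ : Type
  [instCommGroup : CommGroup Δ]
  [instFinite : Finite Δ]
  /-- the generators -/
  δ : Fin r → Δ
  orderOf_δ : ∀ i, orderOf (δ i) = p ^ a i
  closure_δ : Subgroup.closure (Set.range δ) = ⊤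
  card_Δ : Nat.card Δ = ∏ i, p ^ a i
  /-- the diamond operators -/
  D : Δ →* Module.End 𝒪 M'
  D_smul : ∀ (x : Δ) (f : R') (z : M'), D x (f • z) = f • D x z
  /-- freeness over `𝒪[Δ]` -/
  ι : Type
  [instFiniteι : Finite ι]
  /-- an `𝒪`-basis permuted by `Δ` -/
  b : Module.Basis (Δ × ι) 𝒪 M'
  D_b : ∀ x k, D x (b (1, k)) = b (x, k)
  /-- on the vectors fixed by `δ i` the inertia element `g i` acts trivially (unramified at `q i`) -/
  E1 : ∀ i z, D (δ i) z = z → g i • z = z
  /-- on the vectors killed by `Φ_p(δ i)` (nebentypus of exact order `p` at `q i`) the inertia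
  element `g i` has no fixed vectors -/
  E2 : ∀ i z, ∑ j ∈ Finset.range p, D (δ i ^ j) z = 0 → g i • z = z → z = 0
  /-- the map to the base level -/
  π : M' →+ M
  π_surjective : Function.Surjective π
  π_smul : ∀ (f : R') (z : M'), π (f • z) = πR f • π z
  ker_π : ∀ z, π z = 0 → z ∈ ⨆ i, LinearMap.range (D (δ i) - 1)

/-- **The Hecke side input at all Taylor–Wiles levels** for the deformation problem
`dCond t 𝒪 p Smin Smin` and the module `M`. -/
def TWInput {𝒪 : Type} [CommRing 𝒪] [IsDomain 𝒪] [IsDiscreteValuationRing 𝒪]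
    [IsAdicComplete (maximalIdeal 𝒪) 𝒪] {ρbar : ResidualGaloisRep (ResidueField 𝒪)}
    (t : PType) (p : ℕ) (S Smin : Finset ℕ)
    (D₁ : GaloisRep.DeformationRingData 𝒪 ρbar (dCond t 𝒪 p Smin Smin))
    (M : Type) [AddCommGroup M] [Module D₁.R M] : Prop :=
  ∀ (r n : ℕ) (Q : TWSet ρbar p S n r)
    (DQ : GaloisRep.DeformationRingData 𝒪 ρbar
      (dCond t 𝒪 p (Smin ∪ Finset.univ.image Q.q) Smin))
    (πR : DQ.R →ₐ[𝒪] D₁.R) (hπ : IsLocalHom (πR : DQ.R →+* D₁.R)),
    (DQ.ρ.baseChangeAlong (πR : DQ.R →+* D₁.R) hπ).IsEquiv D₁.ρ →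
    ∀ T : ∀ i, Data DQ.ρ (Q.P i) (Q.φ i) (p ^ Q.a i),
      (∀ i, residue DQ.R (T i).A = ResidueField.map (algebraMap 𝒪 DQ.R) (Q.α i) ∧
        residue DQ.R (T i).D = ResidueField.map (algebraMap 𝒪 DQ.R) (Q.β i)) →
      Nonempty (TWHecke 𝒪 p Q.a (fun i => ((T i).g : DQ.R)) πR M)

end Fermat.Agent.RT.TW
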