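import Fermat.Agent.RT.Num.Uniq
import Fermat.Agent.RT.NC.CI
import Fermat.Agent.RT.SelUnram

/-!
# Deformation rings are generated by Frobenius traces (helper57)

* `subalgebra_eq_top` : a subalgebra of `D.R` containing the Frobenius traces and an ideal `I` with
  `D.R ⧸ I` finite over `𝒪` is everything;
* `end_eq_of_frob` : two actions of `D.R` on a finite `𝒪`-module agreeing on Frobenius traces are
  equal; `semilinear_of_frob` : a map equivariant for the Frobenius traces is equivariant.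
-/

set_option autoImplicit false
set_option linter.unusedSectionVars false
set_option linter.style.haveILetI false

open Polynomial IsLocalRing

namespace Fermat.Agent.RT.TW

open Fermat.Agent.UDef Fermat.Agent.DefCond Fermat.Agent.RT.SelUnram Fermat.Agent.RT.SelStep

local notation "Γℚ" => (AlgebraicClosure ℚ ≃ₐ[ℚ] AlgebraicClosure ℚ)

section Frob

variable {A : Type} [CommRing A] [IsLocalRing A] [IsNoetherianRing A]

/-- The characteristic polynomial of Frobenius. -/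
theorem charpoly_frob {ρ : GaloisRepAdic A} {p : ℕ} (hdet : ρ.DetIsCyclotomic p) (hp : p.Prime)
    {ℓ : ℕ} (hℓ : ℓ.Prime) (hpℓ : p ≠ ℓ) {P : ValuationSubring (AlgebraicClosure ℚ)}
    (hP : P.LiesOverPrime ℓ) {σ : Γℚ} (hσ : P.IsFrobeniusAt σ ℓ) :
    LinearMap.charpoly (ρ.ρ σ) = X ^ 2 - C (ρ.trace σ) * X + C (ℓ : A) := by
  rw [BN2.charpoly_eq_of_finrank_two ρ.finrank_eq,
    det_eq_natCast hdet (frobenius_root hp hℓ hpℓ hP hσ)]
  rfl

end Frob

section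

variable {𝒪 : Type} [CommRing 𝒪] [IsDomain 𝒪] [IsDiscreteValuationRing 𝒪]
  [IsAdicComplete (maximalIdeal 𝒪) 𝒪] {ρbar : ResidualGaloisRep (ResidueField 𝒪)}
  {𝒟 : ∀ ⦃A : Type⦄ [CommRing A] [IsLocalRing A] [Algebra 𝒪 A], GaloisRepAdic A → Prop}

/-- The ideal generated by the nonunits of a subalgebra containing the Frobenius traces is the
maximal ideal. -/
theorem span_inter_eq (D : GaloisRep.DeformationRingData 𝒪 ρbar 𝒟)
    (hbc : ∀ ⦃A B : Type⦄ [CommRing A] [IsLocalRing A] [Algebra 𝒪 A]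
      [CommRing B] [IsLocalRing B] [Algebra 𝒪 B], IsCoeff 𝒪 A → IsCoeff 𝒪 B →
      ∀ (φ : A →ₐ[𝒪] B) (hφ : IsLocalHom (φ : A →+* B)) ⦃ρ : GaloisRepAdic A⦄,
        𝒟 ρ → 𝒟 (ρ.baseChangeAlong (φ : A →+* B) hφ))
    {p : ℕ} (hp : p.Prime) (hdet : D.ρ.DetIsCyclotomic p) (S : Finset ℕ) (A : Subalgebra 𝒪 D.R)
    (htr : ∀ ℓ : ℕ, ℓ.Prime → ℓ ∉ S → ∀ P : ValuationSubring (AlgebraicClosure ℚ),
      P.LiesOverPrime ℓ → ∀ σ : Γℚ, P.IsFrobeniusAt σ ℓ → D.ρ.trace σ ∈ A) :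
    Ideal.span {x : D.R | x ∈ A ∧ x ∈ maximalIdeal D.R} = maximalIdeal D.R := by
  classical
  set N : Ideal D.R := Ideal.span {x : D.R | x ∈ A ∧ x ∈ maximalIdeal D.R} with hN
  have hNle : N ≤ maximalIdeal D.R := by
    rw [hN, Ideal.span_le]
    exact fun x hx => hx.2
  have hNtop : N ≠ ⊤ := fun h => (maximalIdeal.isMaximal D.R).ne_top (top_le_iff.mp (h ▸ hNle))
  obtain ⟨hl, hcomp, hloc, hsurj, hmk⟩ := quotient_facts (𝒪 := 𝒪) D.residue_surjective hNtop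
  -- the isomorphism of residue fields
  let r : ResidueField 𝒪 →+* ResidueField D.R := ResidueField.map (algebraMap 𝒪 D.R)
  have hr : Function.Bijective r := by
    refine ⟨r.injective, fun y => ?_⟩
    obtain ⟨c, hc⟩ := D.residue_surjective y
    exact ⟨residue 𝒪 c, hc⟩
  let e : ResidueField 𝒪 ≃+* ResidueField D.R := RingEquiv.ofBijective r hr
  let s : ResidueField 𝒪 →+* D.R ⧸ N :=
    Ideal.Quotient.lift (maximalIdeal 𝒪) (algebraMap 𝒪 (D.R ⧸ N)) (by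
      intro c hc
      have h1 : algebraMap 𝒪 (D.R ⧸ N) c = Ideal.Quotient.mk N (algebraMap 𝒪 D.R c) := rfl
      rw [h1, Ideal.Quotient.eq_zero_iff_mem]
      exact Ideal.subset_span ⟨A.algebraMap_mem c, map_nonunit (algebraMap 𝒪 D.R) c hc⟩)
  let g₀ : D.R →+* D.R ⧸ N := (s.comp (e.symm : ResidueField D.R →+* ResidueField 𝒪)).comp
    (residue D.R)
  have hg₀ : ∀ (x : D.R) (c : 𝒪), residue D.R x = residue D.R (algebraMap 𝒪 D.R c) →
      g₀ x = algebraMap 𝒪 (D.R ⧸ N) c := by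
    intro x c h
    show s (e.symm (residue D.R x)) = _
    have h1 : residue D.R (algebraMap 𝒪 D.R c) = e (residue 𝒪 c) := rfl
    rw [h, h1, RingEquiv.symm_apply_apply]
    rfl
  let g : D.R →ₐ[𝒪] D.R ⧸ N := { g₀ with
    commutes' := fun c => hg₀ _ c rfl }
  let f : D.R →ₐ[𝒪] D.R ⧸ N := Ideal.Quotient.mkₐ 𝒪 N
  have key : f = g := by
    refine Num.algHom_eq_of_frob D hbc hsurj f g (insert p S) fun ℓ hℓ hℓS P hP σ hσ => ?_
    have hpℓ : p ≠ ℓ := fun h => hℓS (h ▸ Finset.mem_insert_self _ _)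
    have hℓS' : ℓ ∉ S := fun h => hℓS (Finset.mem_insert_of_mem h)
    rw [charpoly_frob hdet hp hℓ hpℓ hP hσ]
    have h1 : (f : D.R →+* D.R ⧸ N) (D.ρ.trace σ) = (g : D.R →+* D.R ⧸ N) (D.ρ.trace σ) := by
      obtain ⟨c, hc⟩ := D.residue_surjective (residue D.R (D.ρ.trace σ))
      have h2 : g (D.ρ.trace σ) = algebraMap 𝒪 (D.R ⧸ N) c := hg₀ _ c hc.symm
      have h3 : D.ρ.trace σ - algebraMap 𝒪 D.R c ∈ N := by
        refine Ideal.subset_span ⟨A.sub_mem (htr ℓ hℓ hℓS' P hP σ hσ) (A.algebraMap_mem c), ?_⟩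
        rw [← residue_eq_zero_iff, map_sub, sub_eq_zero]
        exact hc.symm
      have h4 : f (D.ρ.trace σ) = algebraMap 𝒪 (D.R ⧸ N) c := Ideal.Quotient.eq.mpr h3
      exact h4.trans h2.symm
    simp only [Polynomial.map_add, Polynomial.map_sub, Polynomial.map_mul, Polynomial.map_pow,
      Polynomial.map_X, Polynomial.map_C, map_natCast, Polynomial.map_natCast, h1]
  refine le_antisymm hNle fun x hx => ?_
  have h1 : f x = g x := by rw [key]
  have h2 : g x = 0 := by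
    show s (e.symm (residue D.R x)) = 0
    rw [(residue_eq_zero_iff _).mpr hx, map_zero, map_zero]
  rw [h2] at h1
  exact Ideal.Quotient.eq_zero_iff_mem.mp h1

/-- Approximation. -/
theorem toSubmodule_sup_pow {R : Type*} [CommRing R] [IsLocalRing R] [Algebra 𝒪 R]
    (hR : Function.Surjective (residue R ∘ algebraMap 𝒪 R)) (A : Subalgebra 𝒪 R)
    (h : Ideal.span {x : R | x ∈ A ∧ x ∈ maximalIdeal R} = maximalIdeal R) (n : ℕ) :
    Subalgebra.toSubmodule A ⊔ (maximalIdeal R ^ n).restrictScalars 𝒪 = ⊤ := by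
  have hres : ∀ x : R, ∃ c : 𝒪, x - algebraMap 𝒪 R c ∈ maximalIdeal R := fun x => by
    obtain ⟨c, hc⟩ := hR (residue R x)
    refine ⟨c, ?_⟩
    rw [← residue_eq_zero_iff, map_sub, sub_eq_zero]
    exact hc.symm
  have hpow : ∀ n : ℕ, maximalIdeal R ^ n = Ideal.span {x : R | x ∈ A ∧ x ∈ maximalIdeal R ^ n} := by
    intro n
    refine le_antisymm ?_ (Ideal.span_le.mpr fun x hx => hx.2)
    induction n with
    | zero =>
      have h1 : Ideal.span {x : R | x ∈ A ∧ x ∈ maximalIdeal R ^ 0} = ⊤ := by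
        rw [Ideal.eq_top_iff_one]
        refine Ideal.subset_span ⟨A.one_mem, ?_⟩
        rw [pow_zero, Ideal.one_eq_top]
        trivial
      rw [h1]
      exact le_top
    | succ n ih =>
      rw [pow_succ]
      refine Ideal.mul_le.mpr fun x hx y hy => ?_
      have hx' := ih hx
      have hy' : y ∈ Ideal.span {x : R | x ∈ A ∧ x ∈ maximalIdeal R} := by rw [h]; exact hy
      have h1 := Ideal.mul_mem_mul hx' hy'
      rw [Ideal.span_mul_span'] at h1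
      refine Ideal.span_mono ?_ h1
      rintro _ ⟨a, ha, b, hb, rfl⟩
      exact ⟨A.mul_mem ha.1 hb.1, Ideal.mul_mem_mul ha.2 hb.2⟩
  have step : ∀ n : ℕ, ∀ x ∈ maximalIdeal R ^ n,
      x ∈ Subalgebra.toSubmodule A ⊔ (maximalIdeal R ^ (n + 1)).restrictScalars 𝒪 := by
    intro n x hx
    have h3 : ∀ y ∈ Ideal.span {x : R | x ∈ A ∧ x ∈ maximalIdeal R ^ n},
        y ∈ maximalIdeal R ^ n ∧
        y ∈ Subalgebra.toSubmodule A ⊔ (maximalIdeal R ^ (n + 1)).restrictScalars 𝒪 := by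
      intro y hy
      induction hy using Submodule.span_induction with
      | mem y hy => exact ⟨hy.2, Submodule.mem_sup_left hy.1⟩
      | zero => exact ⟨zero_mem _, zero_mem _⟩
      | add y z _ _ hy hz => exact ⟨add_mem hy.1 hz.1, add_mem hy.2 hz.2⟩
      | smul c y _ hy =>
        refine ⟨Ideal.mul_mem_left _ _ hy.1, ?_⟩
        obtain ⟨d, hd⟩ := hres c
        have h4 : c • y = d • y + (c - algebraMap 𝒪 R d) * y := by
          rw [Algebra.smul_def d y, smul_eq_mul]; ring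
        rw [h4]
        refine add_mem (Submodule.smul_mem _ _ hy.2) (Submodule.mem_sup_right ?_)
        rw [Submodule.restrictScalars_mem, pow_succ']
        exact Ideal.mul_mem_mul hd hy.1
    exact (h3 x (hpow n ▸ hx)).2
  induction n with
  | zero => rw [pow_zero, Ideal.one_eq_top]; simp
  | succ n ih =>
    rw [eq_top_iff, ← ih]
    exact sup_le le_sup_left (step n)

/-- **Deformation rings are generated by Frobenius traces** (on finite `𝒪`-algebra quotients). -/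
theorem subalgebra_eq_top (D : GaloisRep.DeformationRingData 𝒪 ρbar 𝒟)
    (hbc : ∀ ⦃A B : Type⦄ [CommRing A] [IsLocalRing A] [Algebra 𝒪 A]
      [CommRing B] [IsLocalRing B] [Algebra 𝒪 B], IsCoeff 𝒪 A → IsCoeff 𝒪 B →
      ∀ (φ : A →ₐ[𝒪] B) (hφ : IsLocalHom (φ : A →+* B)) ⦃ρ : GaloisRepAdic A⦄,
        𝒟 ρ → 𝒟 (ρ.baseChangeAlong (φ : A →+* B) hφ))
    {p : ℕ} (hp : p.Prime) (hdet : D.ρ.DetIsCyclotomic p) (S : Finset ℕ) (A : Subalgebra 𝒪 D.R)
    (I : Ideal D.R) (hI : ∀ x ∈ I, x ∈ A) (hfin : Module.Finite 𝒪 (D.R ⧸ I))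
    (htr : ∀ ℓ : ℕ, ℓ.Prime → ℓ ∉ S → ∀ P : ValuationSubring (AlgebraicClosure ℚ),
      P.LiesOverPrime ℓ → ∀ σ : Γℚ, P.IsFrobeniusAt σ ℓ → D.ρ.trace σ ∈ A) : A = ⊤ := by
  by_cases hItop : I = ⊤
  · subst hItop
    exact eq_top_iff.mpr fun x _ => hI x trivial
  haveI := isLocalRing_quotient hItop
  obtain ⟨n, hn⟩ := NC.exists_pow_le (𝒪 := 𝒪) (T := D.R ⧸ I)
  have h1 := toSubmodule_sup_pow D.residue_surjective A
    (span_inter_eq D hbc hp hdet S A htr) n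
  -- the image in the quotient
  let q : D.R →ₗ[𝒪] D.R ⧸ I := (Ideal.Quotient.mkₐ 𝒪 I).toLinearMap
  have hq : Function.Surjective q := Ideal.Quotient.mk_surjective
  have hmax : (maximalIdeal D.R).map (Ideal.Quotient.mk I) ≤ maximalIdeal (D.R ⧸ I) := by
    rw [Ideal.map_le_iff_le_comap]
    intro x hx
    haveI : IsLocalHom (Ideal.Quotient.mk I) :=
      IsLocalHom.of_surjective _ Ideal.Quotient.mk_surjective
    exact map_nonunit (Ideal.Quotient.mk I) x hx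
  have h2 : (⊤ : Submodule 𝒪 (D.R ⧸ I)) ≤ (Subalgebra.toSubmodule A).map q := by
    refine Submodule.le_of_le_smul_of_le_jacobson_bot (I := maximalIdeal 𝒪) Module.Finite.fg_top
      (IsLocalRing.maximalIdeal_le_jacobson _) ?_
    intro y _
    obtain ⟨x, rfl⟩ := hq y
    have hx : x ∈ Subalgebra.toSubmodule A ⊔ (maximalIdeal D.R ^ n).restrictScalars 𝒪 := by
      rw [h1]; trivial
    obtain ⟨a, ha, b, hb, rfl⟩ := Submodule.mem_sup.mp hx
    rw [map_add]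
    refine Submodule.add_mem_sup ⟨a, ha, rfl⟩ ?_
    have hb1 : q b ∈ (maximalIdeal D.R ^ n).map (Ideal.Quotient.mk I) :=
      Ideal.mem_map_of_mem _ hb
    rw [Ideal.map_pow] at hb1
    have hb2 : q b ∈ (maximalIdeal 𝒪).map (algebraMap 𝒪 (D.R ⧸ I)) :=
      hn (Ideal.pow_right_mono hmax n hb1)
    rw [Ideal.smul_top_eq_map]
    exact hb2
  refine eq_top_iff.mpr fun x _ => ?_
  obtain ⟨a, ha, hax⟩ := h2 (show q x ∈ (⊤ : Submodule 𝒪 (D.R ⧸ I)) from trivial)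
  have h3 : x - a ∈ I := Ideal.Quotient.eq.mp hax.symm
  have h4 := A.add_mem (hI _ h3) ha
  rwa [sub_add_cancel] at h4

/-- **A map equivariant for the Frobenius traces is equivariant.** -/
theorem semilinear_of_frob [IsNoetherianRing 𝒪] (D : GaloisRep.DeformationRingData 𝒪 ρbar 𝒟)
    (hbc : ∀ ⦃A B : Type⦄ [CommRing A] [IsLocalRing A] [Algebra 𝒪 A]
      [CommRing B] [IsLocalRing B] [Algebra 𝒪 B], IsCoeff 𝒪 A → IsCoeff 𝒪 B →
      ∀ (φ : A →ₐ[𝒪] B) (hφ : IsLocalHom (φ : A →+* B)) ⦃ρ : GaloisRepAdic A⦄,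
        𝒟 ρ → 𝒟 (ρ.baseChangeAlong (φ : A →+* B) hφ))
    {p : ℕ} (hp : p.Prime) (hdet : D.ρ.DetIsCyclotomic p) (S : Finset ℕ)
    {M₁ M₂ : Type*} [AddCommGroup M₁] [Module 𝒪 M₁] [Module.Finite 𝒪 M₁]
    [AddCommGroup M₂] [Module 𝒪 M₂] [Module.Finite 𝒪 M₂]
    (Ψ₁ : D.R →ₐ[𝒪] Module.End 𝒪 M₁) (Ψ₂ : D.R →ₐ[𝒪] Module.End 𝒪 M₂) (e : M₁ →ₗ[𝒪] M₂)
    (he : ∀ ℓ : ℕ, ℓ.Prime → ℓ ∉ S → ∀ P : ValuationSubring (AlgebraicClosure ℚ),
      P.LiesOverPrime ℓ → ∀ σ : Γℚ, P.IsFrobeniusAt σ ℓ →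
        ∀ x, e (Ψ₁ (D.ρ.trace σ) x) = Ψ₂ (D.ρ.trace σ) (e x)) (f : D.R) (x : M₁) :
    e (Ψ₁ f x) = Ψ₂ f (e x) := by
  let A : Subalgebra 𝒪 D.R :=
    { carrier := {f | ∀ x, e (Ψ₁ f x) = Ψ₂ f (e x)}
      mul_mem' := fun {f g} hf hg x => by
        rw [map_mul, map_mul, Module.End.mul_apply, Module.End.mul_apply, hf, hg]
      add_mem' := fun {f g} hf hg x => by
        rw [map_add, map_add, LinearMap.add_apply, LinearMap.add_apply, map_add, hf, hg]
      algebraMap_mem' := fun c x => by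
        rw [AlgHom.commutes, AlgHom.commutes, Module.algebraMap_end_apply,
          Module.algebraMap_end_apply, map_smul] }
  let I : Ideal D.R := RingHom.ker (Ψ₁ : D.R →+* Module.End 𝒪 M₁) ⊓
    RingHom.ker (Ψ₂ : D.R →+* Module.End 𝒪 M₂)
  have hI : ∀ x ∈ I, x ∈ A := fun f hf x => by
    have h1 : Ψ₁ f = 0 := hf.1
    have h2 : Ψ₂ f = 0 := hf.2
    rw [h1, h2, LinearMap.zero_apply, LinearMap.zero_apply, map_zero]
  have hfin : Module.Finite 𝒪 (D.R ⧸ I) := by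
    let F : D.R →ₗ[𝒪] Module.End 𝒪 M₁ × Module.End 𝒪 M₂ := Ψ₁.toLinearMap.prod Ψ₂.toLinearMap
    have hF : I.restrictScalars 𝒪 ≤ LinearMap.ker F := by
      intro f hf
      rw [LinearMap.mem_ker]
      exact Prod.ext hf.1 hf.2
    let F' : (D.R ⧸ I.restrictScalars 𝒪) →ₗ[𝒪] Module.End 𝒪 M₁ × Module.End 𝒪 M₂ :=
      (I.restrictScalars 𝒪).liftQ F hF
    have hinj : Function.Injective F' := by
      rw [← LinearMap.ker_eq_bot, LinearMap.ker_eq_bot']
      intro y hy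
      obtain ⟨f, rfl⟩ := Submodule.mkQ_surjective _ y
      have h1 : F f = 0 := hy
      rw [Submodule.mkQ_apply, Submodule.Quotient.mk_eq_zero]
      exact ⟨congrArg Prod.fst h1, congrArg Prod.snd h1⟩
    have h2 : Module.Finite 𝒪 (D.R ⧸ I.restrictScalars 𝒪) := Module.Finite.of_injective F' hinj
    let G : (D.R ⧸ I.restrictScalars 𝒪) →ₗ[𝒪] D.R ⧸ I :=
      (I.restrictScalars 𝒪).liftQ (Ideal.Quotient.mkₐ 𝒪 I).toLinearMap (fun f hf =>
        Ideal.Quotient.eq_zero_iff_mem.mpr hf)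
    exact Module.Finite.of_surjective G (fun y => by
      obtain ⟨f, rfl⟩ := Ideal.Quotient.mk_surjective y
      exact ⟨Submodule.Quotient.mk f, rfl⟩)
  have hA := subalgebra_eq_top D hbc hp hdet S A I hI hfin he
  have hf : f ∈ A := by rw [hA]; trivial
  exact hf x

/-- **Two actions agreeing on Frobenius traces are equal.** -/
theorem end_eq_of_frob [IsNoetherianRing 𝒪] (D : GaloisRep.DeformationRingData 𝒪 ρbar 𝒟)
    (hbc : ∀ ⦃A B : Type⦄ [CommRing A] [IsLocalRing A] [Algebra 𝒪 A]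
      [CommRing B] [IsLocalRing B] [Algebra 𝒪 B], IsCoeff 𝒪 A → IsCoeff 𝒪 B →
      ∀ (φ : A →ₐ[𝒪] B) (hφ : IsLocalHom (φ : A →+* B)) ⦃ρ : GaloisRepAdic A⦄,
        𝒟 ρ → 𝒟 (ρ.baseChangeAlong (φ : A →+* B) hφ))
    {p : ℕ} (hp : p.Prime) (hdet : D.ρ.DetIsCyclotomic p) (S : Finset ℕ)
    {M : Type*} [AddCommGroup M] [Module 𝒪 M] [Module.Finite 𝒪 M]
    (Ψ₁ Ψ₂ : D.R →ₐ[𝒪] Module.End 𝒪 M)
    (he : ∀ ℓ : ℕ, ℓ.Prime → ℓ ∉ S → ∀ P : ValuationSubring (AlgebraicClosure ℚ),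
      P.LiesOverPrime ℓ → ∀ σ : Γℚ, P.IsFrobeniusAt σ ℓ →
        Ψ₁ (D.ρ.trace σ) = Ψ₂ (D.ρ.trace σ)) : Ψ₁ = Ψ₂ := by
  ext f x
  exact semilinear_of_frob D hbc hp hdet S Ψ₁ Ψ₂ LinearMap.id
    (fun ℓ hℓ hℓS P hP σ hσ x => by rw [he ℓ hℓ hℓS P hP σ hσ]; rfl) f x

end

end Fermat.Agent.RT.TW
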