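import Fermat.Agent.RT.TW.Level

/-!
# Rebase of freeness for an abstract module (no base level)

* `iSup_eq` : `∑ (g i - 1) M' = ∑ (δ i - 1) M'`;
* `exists_basis_of_diamonds` : `M'` is free over `𝒪[∏ ℤ/p^{a i}]` acting through the `g i`, of the
  same rank as over `𝒪[Δ]`.
-/

set_option autoImplicit false
set_option linter.unusedSectionVars false
set_option linter.style.haveILetI false

open Module IsLocalRing

namespace Fermat.Agent.RT.TW

open Fermat.Agent.RT.ULim Fermat.Agent.RT.MvEval Fermat.Agent.RT.Patch Fermat.Agent.RT.GroupAlg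

variable {𝒪 : Type} [CommRing 𝒪] [IsLocalRing 𝒪] [IsNoetherianRing 𝒪]
    [IsAdicComplete (maximalIdeal 𝒪) 𝒪] [IsDomain 𝒪] {p : ℕ} [Fact p.Prime]
    (hp𝒪 : (p : 𝒪) ∈ maximalIdeal 𝒪) (hp0 : (p : 𝒪) ≠ 0) {r : ℕ} (a : Fin r → ℕ)
    (ha : ∀ i, 0 < a i) {R' : Type} [CommRing R'] [IsLocalRing R'] [Algebra 𝒪 R']
    [IsLocalHom (algebraMap 𝒪 R')]
    (g : Fin r → R') (hgp : ∀ i, g i ^ p ^ a i = 1)
    {M' : Type} [AddCommGroup M'] [Module 𝒪 M'] [Module R' M'] [IsScalarTower 𝒪 R' M']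
    {Δ : Type} [CommGroup Δ] [Finite Δ] (δ : Fin r → Δ) (hord : ∀ i, orderOf (δ i) = p ^ a i)
    (hcl : Subgroup.closure (Set.range δ) = ⊤) (hcard : Nat.card Δ = ∏ i, p ^ a i)
    (D : Δ →* Module.End 𝒪 M') (hD : ∀ (x : Δ) (f : R') (z : M'), D x (f • z) = f • D x z)
    {ι : Type} [Finite ι] (b : Module.Basis (Δ × ι) 𝒪 M') (hb : ∀ x k, D x (b (1, k)) = b (x, k))
    (E1 : ∀ i z, D (δ i) z = z → g i • z = z)
    (E2 : ∀ i z, ∑ j ∈ Finset.range p, D (δ i ^ j) z = 0 → g i • z = z → z = 0)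

include hp𝒪 hp0 ha hgp hord hcard hD hb E1 E2 in
/-- `(g i - 1) M' ⊆ (δ i - 1) M'` -/
theorem g_sub_le (i : Fin r) (x : M') : ∃ y, (g i - 1) • x = D (δ i) y - y := by
  obtain ⟨k, hk⟩ : ∃ k, a i = k + 1 := ⟨a i - 1, by have := ha i; omega⟩
  have hpt : ∀ z : M', (p : R') • z = 0 → z = 0 := by
    intro z hz
    have h1 : (p : 𝒪) • z = 0 := by
      rw [← algebraMap_smul R' (p : 𝒪) z, map_natCast]
      exact hz
    haveI : Module.Free 𝒪 M' := Module.Free.of_basis b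
    exact (smul_eq_zero.mp h1).resolve_left hp0
  exact (rigid_free (p_mem hp𝒪) (isPGroup_of_card a hcard) D hD b hb hpt (s := δ i) (a := k)
      (by rw [hord, hk]) (hgp i) (E1 i) (E2 i)).2 x

include hp𝒪 hp0 ha hgp hord hcard hD hb E1 E2 in
/-- `∑ (g i - 1) M' = ∑ (δ i - 1) M'` -/
theorem mem_smul_iff_mem_iSup (z : M') :
    z ∈ (Ideal.span (Set.range fun i => g i - 1)) • (⊤ : Submodule R' M') ↔
      z ∈ (⨆ i, LinearMap.range (D (δ i) - 1)) := by
  refine ⟨fun hz => ?_, fun hz => mem_smul_of_mem_iSup hp𝒪 hp0 a ha g hgp δ hord hcard D hD b hb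
    E1 E2 hz⟩
  refine Submodule.smul_induction_on hz ?_ (fun x y hx hy => add_mem hx hy)
  intro s hs y _
  obtain ⟨e, rfl⟩ := (Ideal.mem_span_range_iff_exists_fun).mp hs
  rw [Finset.sum_smul]
  refine Submodule.sum_mem _ fun i _ => ?_
  obtain ⟨w, hw⟩ := g_sub_le hp𝒪 hp0 a ha g hgp δ hord hcard D hD b hb E1 E2 i (e i • y)
  have h1 : (e i * (g i - 1)) • y = (D (δ i) - 1) w := by
    rw [mul_comm, mul_smul, hw]
    rfl
  rw [h1]
  exact (le_iSup (fun i => LinearMap.range (D (δ i) - 1)) i) ⟨w, rfl⟩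

include hp𝒪 hp0 ha hgp hord hcard hD hb E1 E2 in
theorem iSup_eq : ((Ideal.span (Set.range fun i => g i - 1)) •
    (⊤ : Submodule R' M')).restrictScalars 𝒪 = ⨆ i, LinearMap.range (D (δ i) - 1) := by
  ext z
  rw [Submodule.restrictScalars_mem]
  exact mem_smul_iff_mem_iSup hp𝒪 hp0 a ha g hgp δ hord hcard D hD b hb E1 E2 z

include hp𝒪 hp0 ha hgp hord hcl hcard hD hb E1 E2 in
/-- **Freeness through the `g i`.** -/
theorem exists_basis_of_diamonds :
    letI : Module (MonoidAlgebra 𝒪 (Grp fun i => p ^ a i)) M' :=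
      Module.compHom M' (grpHom (𝒪 := 𝒪) a g hgp : _ →+* R')
    Nonempty (Module.Basis (Fin (Nat.card ι)) (MonoidAlgebra 𝒪 (Grp fun i => p ^ a i)) M') := by
  classical
  haveI : Fintype ι := Fintype.ofFinite _
  haveI : Fintype Δ := Fintype.ofFinite _
  haveI : Module.Finite 𝒪 M' := Module.Finite.of_basis b
  haveI : Module.Free 𝒪 M' := Module.Free.of_basis b
  have hrank : Module.finrank 𝒪 M' = Nat.card ι * ∏ i, p ^ a i := by
    rw [Module.finrank_eq_card_basis b, Fintype.card_prod, mul_comm, Nat.card_eq_fintype_card]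
    congr 1
    rw [← hcard, Nat.card_eq_fintype_card]
  let e : Fin (Nat.card ι) ≃ ι := (Finite.equivFin ι).symm
  refine exists_basis_rebase hp𝒪 a hrank g hgp (fun j => b (1, e j)) ?_
  intro m
  refine ⟨fun j => ∑ x, b.repr m (x, e j), ?_⟩
  have h1 := exists_coeffs δ hcl D b hb m
  rw [← Equiv.sum_comp e (fun k => (∑ x, b.repr m (x, k)) • b (1, k))] at h1
  exact mem_smul_of_mem_iSup hp𝒪 hp0 a ha g hgp δ hord hcard D hD b hb E1 E2 h1

end Fermat.Agent.RT.TW
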