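import Mathlib

/-!
# Modules with a basis permuted by a finite commutative group

`D : Δ →* End 𝒪 M'`, `b : Basis (Δ × ι) 𝒪 M'`, `D x (b (1, k)) = b (x, k)`.

* `exists_norm_of_fixed`, `mem_range_of_norm_eq_zero` : Tate cohomology of cyclic subgroups vanishes;
* `exists_phi_of_theta` : `Θ x = 0 → x ∈ Φ M'`.
-/

set_option autoImplicit false
set_option linter.unusedSectionVars false
set_option linter.style.haveILetI false

open Module

namespace Fermat.Agent.RT.TW

section Basic

variable {𝒪 : Type*} [CommRing 𝒪] {Δ : Type*} [CommGroup Δ] {ι : Type*}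
  {M' : Type*} [AddCommGroup M'] [Module 𝒪 M']
  {D : Δ →* Module.End 𝒪 M'} {b : Basis (Δ × ι) 𝒪 M'}

theorem D_basis (hb : ∀ x k, D x (b (1, k)) = b (x, k)) (x y : Δ) (k : ι) :
    D x (b (y, k)) = b (x * y, k) := by
  rw [← hb y, ← Module.End.mul_apply, ← map_mul, hb]

/-- The enumeration of `Δ` by a subgroup `H` and the quotient. -/
noncomputable def cosetEquiv (H : Subgroup Δ) : H × (Δ ⧸ H) ≃ Δ :=
  Equiv.ofBijective (fun z => (z.1 : Δ) * z.2.out) (by
    constructor
    · rintro ⟨h, c⟩ ⟨h', c'⟩ heq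
      have heq' : (h : Δ) * c.out = h' * c'.out := heq
      have h1 : c = c' := by
        rw [← QuotientGroup.out_eq' c, ← QuotientGroup.out_eq' c', QuotientGroup.eq]
        have : (c.out)⁻¹ * c'.out = (h : Δ) * (h' : Δ)⁻¹ := by
          rw [eq_mul_inv_iff_mul_eq, mul_assoc, inv_mul_eq_iff_eq_mul, mul_comm c'.out, ← heq',
            mul_comm]
        rw [this]
        exact H.mul_mem h.2 (H.inv_mem h'.2)
      subst h1
      exact Prod.ext (Subtype.ext (mul_right_cancel heq')) rfl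
    · intro t
      refine ⟨⟨⟨t * (QuotientGroup.mk (s := H) t).out⁻¹, ?_⟩, QuotientGroup.mk t⟩, ?_⟩
      · have h1 : ((QuotientGroup.mk (s := H) t).out : Δ ⧸ H) = QuotientGroup.mk t :=
          QuotientGroup.out_eq' _
        rw [QuotientGroup.eq] at h1
        rw [mul_comm]
        exact h1
      · simp)

theorem cosetEquiv_apply (H : Subgroup Δ) (h : H) (c : Δ ⧸ H) :
    cosetEquiv H (h, c) = h * c.out := rfl

/-- basis adapted to a subgroup -/
noncomputable def subBasis (b : Basis (Δ × ι) 𝒪 M') (H : Subgroup Δ) :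
    Basis (H × ((Δ ⧸ H) × ι)) 𝒪 M' :=
  b.reindex ((((cosetEquiv H).prodCongr (Equiv.refl ι)).symm).trans (Equiv.prodAssoc H (Δ ⧸ H) ι))

theorem subBasis_apply (H : Subgroup Δ) (h : H) (c : (Δ ⧸ H) × ι) :
    subBasis b H (h, c) = b (h * c.1.out, c.2) := by
  rw [subBasis, Basis.reindex_apply]
  rfl

theorem D_subBasis (hb : ∀ x k, D x (b (1, k)) = b (x, k)) (H : Subgroup Δ) (h h' : H)
    (c : (Δ ⧸ H) × ι) : D h (subBasis b H (h', c)) = subBasis b H (h * h', c) := by
  rw [subBasis_apply, subBasis_apply, D_basis hb, ← mul_assoc]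
  rfl

theorem repr_D_sub (hb : ∀ x k, D x (b (1, k)) = b (x, k)) (H : Subgroup Δ) (h h' : H)
    (c : (Δ ⧸ H) × ι) (x : M') :
    (subBasis b H).repr (D h x) (h', c) = (subBasis b H).repr x (h⁻¹ * h', c) := by
  classical
  have h1 : (Finsupp.lapply (h', c) ∘ₗ (subBasis b H).repr.toLinearMap ∘ₗ (D h) : M' →ₗ[𝒪] 𝒪) =
      Finsupp.lapply (h⁻¹ * h', c) ∘ₗ (subBasis b H).repr.toLinearMap := by
    refine (subBasis b H).ext ?_
    rintro ⟨h'', c'⟩
    simp only [LinearMap.comp_apply, LinearEquiv.coe_coe, Finsupp.lapply_apply]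
    rw [D_subBasis hb, Basis.repr_self, Basis.repr_self, Finsupp.single_apply,
      Finsupp.single_apply]
    congr 1
    simp only [Prod.mk.injEq, eq_iff_iff]
    constructor
    · rintro ⟨rfl, rfl⟩
      exact ⟨by group, rfl⟩
    · rintro ⟨h2, rfl⟩
      exact ⟨by rw [h2]; group, rfl⟩
  exact LinearMap.congr_fun h1 x

variable [Finite Δ] [Finite ι]

/-- A vector fixed by `H` is a norm. -/
theorem exists_norm_of_fixed' (hb : ∀ x k, D x (b (1, k)) = b (x, k)) (H : Subgroup Δ) [Fintype H]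
    {x : M'} (hx : ∀ h : H, D h x = x) : ∃ y, x = ∑ h : H, D h y := by
  classical
  haveI := Fintype.ofFinite ((Δ ⧸ H) × ι)
  have h1 : ∀ (h : H) c, (subBasis b H).repr x (h, c) = (subBasis b H).repr x (1, c) := by
    intro h c
    have := repr_D_sub hb H h h c x
    rw [hx h, inv_mul_cancel] at this
    exact this
  refine ⟨∑ c, (subBasis b H).repr x (1, c) • subBasis b H (1, c), ?_⟩
  conv_lhs => rw [← (subBasis b H).sum_repr x, Fintype.sum_prod_type]
  refine Finset.sum_congr rfl fun h _ => ?_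
  rw [map_sum]
  refine Finset.sum_congr rfl fun c _ => ?_
  rw [map_smul, D_subBasis hb, mul_one, h1]

/-- A vector of norm `0` lies in the augmentation submodule. -/
theorem mem_span_of_norm_eq_zero (hb : ∀ x k, D x (b (1, k)) = b (x, k)) (H : Subgroup Δ)
    [Fintype H] {x : M'} (hx : ∑ h : H, D h x = 0) :
    x ∈ Submodule.span 𝒪 {y | ∃ (h : H) (z : M'), y = D h z - z} := by
  classical
  haveI := Fintype.ofFinite ((Δ ⧸ H) × ι)
  have h1 : ∀ c, ∑ h : H, (subBasis b H).repr x (h, c) = 0 := by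
    intro c
    have h2 := congrArg (fun y => (subBasis b H).repr y (1, c)) hx
    simp only [map_sum, map_zero, Finsupp.coe_zero, Pi.zero_apply, Finsupp.coe_finsetSum,
      Finset.sum_apply] at h2
    rw [← h2]
    refine (Fintype.sum_equiv (Equiv.inv H) _ _ fun h => ?_)
    rw [repr_D_sub hb]
    simp
  have h3 : x = ∑ c, ∑ h : H, (subBasis b H).repr x (h, c) •
      (D h (subBasis b H (1, c)) - subBasis b H (1, c)) := by
    conv_lhs => rw [← (subBasis b H).sum_repr x, Fintype.sum_prod_type, Finset.sum_comm]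
    refine Finset.sum_congr rfl fun c _ => ?_
    simp only [smul_sub, Finset.sum_sub_distrib]
    rw [← Finset.sum_smul (f := fun h => (subBasis b H).repr x (h, c)), h1, zero_smul, sub_zero]
    refine Finset.sum_congr rfl fun h _ => ?_
    rw [D_subBasis hb, mul_one]
  rw [h3]
  refine Submodule.sum_mem _ fun c _ => Submodule.sum_mem _ fun h _ => Submodule.smul_mem _ _
    (Submodule.subset_span ⟨h, _, rfl⟩)

theorem sum_zpowers {X : Type*} [AddCommMonoid X] (s : Δ) [Fintype (Subgroup.zpowers s)]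
    (f : Δ → X) : ∑ h : Subgroup.zpowers s, f h = ∑ j ∈ Finset.range (orderOf s), f (s ^ j) := by
  rw [← Fin.sum_univ_eq_sum_range (fun j => f (s ^ j))]
  refine (Fintype.sum_equiv (finEquivZPowers (isOfFinOrder_of_finite s)) _ _ fun j => ?_).symm
  rw [finEquivZPowers_apply]

/-- A vector fixed by `s` is a norm from `⟨s⟩`. -/
theorem exists_norm_of_fixed (hb : ∀ x k, D x (b (1, k)) = b (x, k)) (s : Δ) {x : M'}
    (hx : D s x = x) : ∃ y, x = ∑ j ∈ Finset.range (orderOf s), D (s ^ j) y := by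
  classical
  haveI : Fintype (Subgroup.zpowers s) := Fintype.ofFinite _
  have hpow : ∀ n : ℕ, D (s ^ n) x = x := by
    intro n
    induction n with
    | zero => simp
    | succ n ih => rw [pow_succ, map_mul, Module.End.mul_apply, hx, ih]
  obtain ⟨y, hy⟩ := exists_norm_of_fixed' hb (Subgroup.zpowers s) (x := x) (by
    rintro ⟨h, hh⟩
    obtain ⟨n, rfl⟩ := mem_powers_iff_mem_zpowers.mpr hh
    exact hpow n)
  exact ⟨y, by rw [hy, sum_zpowers s (fun h => D h y)]⟩

theorem pow_sub_mem_range (s : Δ) (n : ℕ) (z : M') :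
    D (s ^ n) z - z ∈ LinearMap.range (D s - 1) := by
  induction n with
  | zero => simp
  | succ n ih =>
    have : D (s ^ (n + 1)) z - z = (D (s ^ n) z - z) + (D s - 1) (D (s ^ n) z) := by
      rw [pow_succ', map_mul, Module.End.mul_apply, LinearMap.sub_apply, Module.End.one_apply]
      abel
    rw [this]
    exact add_mem ih ⟨_, rfl⟩

/-- A vector of norm `0` from `⟨s⟩` is in `(s - 1) M'`. -/
theorem mem_range_of_norm_eq_zero (hb : ∀ x k, D x (b (1, k)) = b (x, k)) (s : Δ) {x : M'}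
    (hx : ∑ j ∈ Finset.range (orderOf s), D (s ^ j) x = 0) :
    x ∈ LinearMap.range (D s - 1) := by
  classical
  haveI : Fintype (Subgroup.zpowers s) := Fintype.ofFinite _
  have h1 := mem_span_of_norm_eq_zero hb (Subgroup.zpowers s) (x := x) (by
    rw [sum_zpowers s (fun h => D h x), hx])
  refine Submodule.span_le.mpr ?_ h1
  rintro _ ⟨⟨h, hh⟩, z, rfl⟩
  obtain ⟨n, rfl⟩ := mem_powers_iff_mem_zpowers.mpr hh
  exact pow_sub_mem_range s n z

/-- The factorisation of the norm. -/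
theorem norm_eq (s : Δ) (m p : ℕ) (x : M') : ∑ j ∈ Finset.range (p * m), D (s ^ j) x =
    ∑ i ∈ Finset.range m, D ((s ^ p) ^ i) (∑ l ∈ Finset.range p, D (s ^ l) x) := by
  induction m with
  | zero => simp
  | succ m ih =>
    rw [Finset.sum_range_succ, ← ih, mul_add, mul_one, Finset.sum_range_add, map_sum]
    congr 1
    refine Finset.sum_congr rfl fun l _ => ?_
    rw [← Module.End.mul_apply, ← map_mul, ← pow_mul, ← pow_add]

/-- `Θ x = 0 → x ∈ Φ M'`, in the form: if `ν x` is fixed by `s`, where `ν` is the norm of `s ^ p`,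
then `x ∈ Φ M'`. -/
theorem exists_phi_of_fixed (hb : ∀ x k, D x (b (1, k)) = b (x, k)) {p a : ℕ} (hp : p.Prime)
    (s : Δ) (hs : orderOf s = p ^ (a + 1)) {x : M'}
    (hx : D s (∑ i ∈ Finset.range (p ^ a), D ((s ^ p) ^ i) x) =
      ∑ i ∈ Finset.range (p ^ a), D ((s ^ p) ^ i) x) :
    ∃ y, x = ∑ l ∈ Finset.range p, D (s ^ l) y := by
  obtain ⟨y, hy⟩ := exists_norm_of_fixed hb s hx
  rw [hs, pow_succ', norm_eq] at hy
  have h1 : ∑ i ∈ Finset.range (p ^ a), D ((s ^ p) ^ i)
      (x - ∑ l ∈ Finset.range p, D (s ^ l) y) = 0 := by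
    simp only [map_sub, Finset.sum_sub_distrib]
    rw [hy, sub_self]
  have h2 : orderOf (s ^ p) = p ^ a := by
    rw [orderOf_pow_of_dvd hp.ne_zero (by rw [hs]; exact dvd_pow_self p (Nat.succ_ne_zero a)), hs,
      pow_succ, Nat.mul_div_cancel _ hp.pos]
  rw [← h2] at h1
  obtain ⟨w, hw⟩ := mem_range_of_norm_eq_zero hb (s ^ p) h1
  refine ⟨y + (D s - 1) w, ?_⟩
  have h3 : ∑ l ∈ Finset.range p, D (s ^ l) ((D s - 1) w) = (D (s ^ p) - 1) w := by
    rw [LinearMap.sub_apply, LinearMap.sub_apply, Module.End.one_apply]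
    simp only [map_sub, ← Module.End.mul_apply, ← map_mul, ← pow_succ]
    rw [Finset.sum_range_sub (fun l => D (s ^ l) w) p]
    simp
  simp only [map_add, Finset.sum_add_distrib]
  rw [h3, hw]
  abel

end Basic

/-! ### From freeness over the group ring -/

section Converter

variable {𝒪 : Type*} [CommRing 𝒪] {Δ : Type*} [CommGroup Δ] {ι : Type*}
  {M' : Type*} [AddCommGroup M'] [Module 𝒪 M'] [Module (MonoidAlgebra 𝒪 Δ) M']
  [IsScalarTower 𝒪 (MonoidAlgebra 𝒪 Δ) M']

/-- The basis permuted by `Δ` attached to a basis over the group ring. -/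
theorem exists_permBasis (B : Basis ι (MonoidAlgebra 𝒪 Δ) M') :
    ∃ b : Basis (Δ × ι) 𝒪 M', ∀ x k, b (x, k) = MonoidAlgebra.of 𝒪 Δ x • B k := by
  let e : Basis Δ 𝒪 (MonoidAlgebra 𝒪 Δ) :=
    ⟨MonoidAlgebra.coeffLinearEquiv 𝒪⟩
  refine ⟨e.smulTower B, fun x k => ?_⟩
  rw [Basis.smulTower_apply]
  congr 1

end Converter

end Fermat.Agent.RT.TW
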