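import Fermat.Agent.RT.TWLevel
import Fermat.Agent.RT.GroupRing
import Mathlib.LinearAlgebra.FiniteDimensional.Basic
import Mathlib.RingTheory.OrzechProperty
import Mathlib.LinearAlgebra.Dimension.StrongRankCondition

/-!
# Patching levels from the Galois side generators

`exists_basis_rebase`: a finite free `𝒪`-module `M'` of rank `d ∏ p^{a_i}` with commuting
operators `g_i` of order dividing `p^{a_i}` such that `M' / ∑ (g_i - 1) M'` is generated by `d`
elements is free of rank `d` over `𝒪[∏ ℤ/p^{a_i}]`.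
-/

set_option autoImplicit false
set_option linter.unusedSectionVars false
set_option linter.style.haveILetI false

open IsLocalRing MvPowerSeries

namespace Fermat.Agent.RT.TW

open Fermat.Agent.RT.ULim Fermat.Agent.RT.MvEval Fermat.Agent.RT.Patch Fermat.Agent.RT.GroupAlg

variable {𝒪 : Type} [CommRing 𝒪] [IsLocalRing 𝒪] {r : ℕ} {p : ℕ} [Fact p.Prime]

/-- the algebra map `𝒪[G] → R'` attached to elements `g_i` of `p`-power order -/
noncomputable def grpHom (a : Fin r → ℕ) {R' : Type} [CommRing R'] [Algebra 𝒪 R'] (g : Fin r → R')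
    (hgp : ∀ i, g i ^ p ^ a i = 1) : MonoidAlgebra 𝒪 (Grp fun i => p ^ a i) →ₐ[𝒪] R' :=
  MonoidAlgebra.lift 𝒪 R' _ (powHom (q := fun i => p ^ a i) g hgp)

theorem powHom_gen {R' : Type} [CommRing R'] {q : Fin r → ℕ} [∀ i, NeZero (q i)] (g : Fin r → R')
    (hgp : ∀ i, g i ^ q i = 1) (i : Fin r) : powHom g hgp (gen q i) = g i := by
  classical
  rw [powHom_apply, Finset.prod_eq_single i]
  · simp only [expo, gen, Pi.mulSingle_eq_same, toAdd_ofAdd]
    by_cases h1 : q i = 1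
    · have h2 : g i = 1 := by
        have := hgp i
        rwa [h1, pow_one] at this
      rw [h2, one_pow]
    · haveI : Fact (1 < q i) := ⟨by
        have := NeZero.ne (q i)
        omega⟩
      rw [ZMod.val_one, pow_one]
  · intro j _ hj
    have : expo q (gen q i) j = 0 := by
      simp [expo, gen, Pi.mulSingle_eq_of_ne hj]
    rw [this, pow_zero]
  · intro h; exact absurd (Finset.mem_univ _) h

theorem grpHom_of (a : Fin r → ℕ) {R' : Type} [CommRing R'] [Algebra 𝒪 R'] (g : Fin r → R')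
    (hgp : ∀ i, g i ^ p ^ a i = 1) (x : Grp fun i => p ^ a i) :
    grpHom (𝒪 := 𝒪) a g hgp (MonoidAlgebra.of 𝒪 _ x) =
      powHom (q := fun i => p ^ a i) g hgp x := by
  rw [grpHom]
  simp

theorem isPGroup_grp (a : Fin r → ℕ) : IsPGroup p (Grp fun i : Fin r => p ^ a i) := by
  apply IsPGroup.of_card (n := ∑ i, a i)
  rw [Nat.card_pi]
  simp only [Nat.card_eq_fintype_card, Fintype.card_multiplicative, ZMod.card]
  rw [Finset.prod_pow_eq_pow_sum]

theorem card_grp (a : Fin r → ℕ) :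
    Fintype.card (Grp fun i : Fin r => p ^ a i) = ∏ i, p ^ a i := by
  rw [Fintype.card_pi]
  simp only [Fintype.card_multiplicative, ZMod.card]

theorem exists_basis_rebase (hp𝒪 : (p : 𝒪) ∈ maximalIdeal 𝒪) (a : Fin r → ℕ)
    {R' : Type} [CommRing R'] [Algebra 𝒪 R']
    {M' : Type} [AddCommGroup M'] [Module R' M'] [Module 𝒪 M'] [IsScalarTower 𝒪 R' M']
    [Module.Finite 𝒪 M'] [Module.Free 𝒪 M'] {d : ℕ}
    (hrank : Module.finrank 𝒪 M' = d * ∏ i, p ^ a i)
    (g : Fin r → R') (hgp : ∀ i, g i ^ p ^ a i = 1) (x : Fin d → M')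
    (hx : ∀ m : M', ∃ c : Fin d → 𝒪, m - ∑ j, c j • x j ∈
      (Ideal.span (Set.range fun i => g i - 1)) • (⊤ : Submodule R' M')) :
    letI : Module (MonoidAlgebra 𝒪 (Grp fun i => p ^ a i)) M' :=
      Module.compHom M' (grpHom (𝒪 := 𝒪) a g hgp : _ →+* R')
    Nonempty (Module.Basis (Fin d) (MonoidAlgebra 𝒪 (Grp fun i => p ^ a i)) M') := by
  classical
  letI iM : Module (MonoidAlgebra 𝒪 (Grp fun i => p ^ a i)) M' :=
      Module.compHom M' (grpHom (𝒪 := 𝒪) a g hgp : _ →+* R')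
  show Nonempty (Module.Basis (Fin d) (MonoidAlgebra 𝒪 (Grp fun i => p ^ a i)) M')
  set G := Grp fun i => p ^ a i with hG
  have hsm : ∀ (l : MonoidAlgebra 𝒪 G) (m : M'), l • m = grpHom (𝒪 := 𝒪) a g hgp l • m :=
    fun l m => rfl
  haveI : IsScalarTower 𝒪 (MonoidAlgebra 𝒪 G) M' := by
    refine ⟨fun c l m => ?_⟩
    rw [hsm, hsm, map_smul, smul_assoc]
  haveI : IsLocalRing (MonoidAlgebra 𝒪 G) := GR.isLocalRing_monoidAlgebra (isPGroup_grp a) hp𝒪
  haveI : Module.Finite (MonoidAlgebra 𝒪 G) M' :=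
    Module.Finite.of_restrictScalars_finite 𝒪 _ _
  -- the augmentation ideal
  let I : Ideal (MonoidAlgebra 𝒪 G) :=
    Ideal.span (Set.range fun i => MonoidAlgebra.of 𝒪 G (gen _ i) - 1)
  have hI : I ≤ maximalIdeal (MonoidAlgebra 𝒪 G) := by
    rw [Ideal.span_le]
    rintro _ ⟨i, rfl⟩
    rw [SetLike.mem_coe, IsLocalRing.mem_maximalIdeal]
    intro hu
    let ε : MonoidAlgebra 𝒪 G →ₐ[𝒪] 𝒪 := MonoidAlgebra.lift 𝒪 𝒪 G (1 : G →* 𝒪)
    have hε : ∀ h : G, ε (MonoidAlgebra.of 𝒪 G h) = 1 := by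
      intro h; simp [ε]
    have h1 : IsUnit (ε (MonoidAlgebra.of 𝒪 G (gen _ i) - 1)) := hu.map ε
    rw [map_sub, hε, map_one ε, sub_self] at h1
    exact not_isUnit_zero h1
  -- the span
  have hspan : (⊤ : Submodule (MonoidAlgebra 𝒪 G) M') ≤
      Submodule.span (MonoidAlgebra 𝒪 G) (Set.range x) := by
    apply Submodule.le_of_le_smul_of_le_jacobson_bot (I := I)
    · exact Module.Finite.fg_top
    · exact hI.trans (IsLocalRing.maximalIdeal_le_jacobson _)
    · intro m _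
      obtain ⟨c, hc⟩ := hx m
      have h1 : m = ∑ j, c j • x j + (m - ∑ j, c j • x j) := by abel
      rw [h1]
      refine Submodule.add_mem_sup ?_ ?_
      · refine Submodule.sum_mem _ fun j _ => ?_
        rw [← algebraMap_smul (MonoidAlgebra 𝒪 G) (c j) (x j)]
        exact Submodule.smul_mem _ _ (Submodule.subset_span ⟨j, rfl⟩)
      · -- elements of `(g - 1) M'`
        refine Submodule.smul_induction_on (p := fun y => y ∈ I • (⊤ : Submodule _ M')) hc ?_ ?_
        · intro s hs y _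
          obtain ⟨e, rfl⟩ := (Ideal.mem_span_range_iff_exists_fun).mp hs
          rw [Finset.sum_smul]
          refine Submodule.sum_mem _ fun i _ => ?_
          have h2 : (e i * (g i - 1)) • y = (MonoidAlgebra.of 𝒪 G (gen _ i) - 1) • (e i • y) := by
            rw [hsm, map_sub, map_one, grpHom_of, powHom_gen, smul_smul, mul_comm]
          rw [h2]
          exact Submodule.smul_mem_smul (Ideal.subset_span ⟨i, rfl⟩) trivial
        · intro y z hy hz
          exact add_mem hy hz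
  -- the comparison map
  let f : (Fin d → MonoidAlgebra 𝒪 G) →ₗ[MonoidAlgebra 𝒪 G] M' :=
    Fintype.linearCombination (MonoidAlgebra 𝒪 G) x
  have hfs : Function.Surjective f := by
    rw [← LinearMap.range_eq_top, Fintype.range_linearCombination]
    exact top_le_iff.mp hspan
  have hfin1 : Module.finrank 𝒪 (Fin d → MonoidAlgebra 𝒪 G) = Module.finrank 𝒪 M' := by
    rw [hrank, Module.finrank_pi_fintype]
    have h3 : Module.finrank 𝒪 (MonoidAlgebra 𝒪 G) = ∏ i, p ^ a i := by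
      rw [← card_grp a]
      have h4 : Module.finrank 𝒪 (MonoidAlgebra 𝒪 G) = Module.finrank 𝒪 (G →₀ 𝒪) :=
        (MonoidAlgebra.coeffLinearEquiv 𝒪).finrank_eq
      rw [h4, Module.finrank_finsupp_self]
    simp only [h3, Finset.sum_const, Finset.card_univ, Fintype.card_fin, smul_eq_mul]
  have hbij : Function.Bijective f := by
    refine ⟨?_, hfs⟩
    let f' : (Fin d → MonoidAlgebra 𝒪 G) →ₗ[𝒪] M' := f.restrictScalars 𝒪
    let e : M' ≃ₗ[𝒪] (Fin d → MonoidAlgebra 𝒪 G) := LinearEquiv.ofFinrankEq _ _ hfin1.symm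
    have h5 : Function.Surjective (e.toLinearMap ∘ₗ f') := e.surjective.comp hfs
    have h6 : Function.Injective (e.toLinearMap ∘ₗ f') :=
      OrzechProperty.injective_of_surjective_endomorphism _ h5
    exact Function.Injective.of_comp h6
  exact ⟨((Pi.basisFun (MonoidAlgebra 𝒪 G) (Fin d)).map (LinearEquiv.ofBijective f hbij))⟩

/-- **Patching level from the Galois side generators.** -/
theorem exists_level_rebase [IsNoetherianRing 𝒪] [IsAdicComplete (maximalIdeal 𝒪) 𝒪]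
    (hp𝒪 : (p : 𝒪) ∈ maximalIdeal 𝒪) (a : Fin r → ℕ)
    {R' : Type} [CommRing R'] [IsLocalRing R'] [Algebra 𝒪 R'] [IsLocalHom (algebraMap 𝒪 R')]
    [IsAdicComplete (maximalIdeal R') R']
    {R : Type} [CommRing R] [Algebra 𝒪 R]
    {M : Type} [AddCommGroup M] [Module R M]
    {M' : Type} [AddCommGroup M'] [Module R' M'] [Module 𝒪 M'] [IsScalarTower 𝒪 R' M']
    [Module.Finite 𝒪 M'] [Module.Free 𝒪 M'] {d : ℕ}
    (hrank : Module.finrank 𝒪 M' = d * ∏ i, p ^ a i)
    (γ : MvPowerSeries (Fin r) 𝒪 →ₐ[𝒪] R') (hγ : Function.Surjective γ)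
    (g : Fin r → R') (hg : ∀ i, g i - 1 ∈ maximalIdeal R') (hgp : ∀ i, g i ^ p ^ a i = 1)
    (x : Fin d → M')
    (hx : ∀ m : M', ∃ c : Fin d → 𝒪, m - ∑ j, c j • x j ∈
      (Ideal.span (Set.range fun i => g i - 1)) • (⊤ : Submodule R' M'))
    (ρ : R' →ₐ[𝒪] R) (hρ : Function.Surjective ρ) (hρg : ∀ i, ρ (g i) = 1)
    (π : M' →+ M) (hπ : ∀ (f : R') (x : M'), π (f • x) = ρ f • π x)
    (hπs : Function.Surjective π)
    (hker : ∀ x, π x = 0 → x ∈ (Ideal.span (Set.range fun i => g i - 1)) •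
      (⊤ : Submodule R' M')) :
    Nonempty (Algebra.PatchingLevel 𝒪 r R M (idealJ 𝒪 p a)) := by
  classical
  letI iM : Module (MonoidAlgebra 𝒪 (Grp fun i => p ^ a i)) M' :=
      Module.compHom M' (grpHom (𝒪 := 𝒪) a g hgp : _ →+* R')
  obtain ⟨b⟩ := exists_basis_rebase hp𝒪 a hrank g hgp x hx
  refine TWLevel.exists_level hp𝒪 a γ hγ (powHom (q := fun i => p ^ a i) g hgp) ?_ ?_ ?_ b ρ hρ ?_
    π hπ hπs ?_
  · intro i
    rw [powHom_gen]
    exact hg i
  · intro h m
    have h1 : MonoidAlgebra.of 𝒪 (Grp fun i => p ^ a i) h • m =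
        grpHom (𝒪 := 𝒪) a g hgp (MonoidAlgebra.of 𝒪 _ h) • m := rfl
    rw [h1, grpHom_of]
  · intro c m
    have h1 : algebraMap 𝒪 (MonoidAlgebra 𝒪 (Grp fun i => p ^ a i)) c • m =
        grpHom (𝒪 := 𝒪) a g hgp (algebraMap 𝒪 _ c) • m := rfl
    rw [h1, AlgHom.commutes]
  · intro i
    rw [powHom_gen]
    exact hρg i
  · intro m hm
    refine Submodule.smul_mono_left ?_ (hker m hm)
    rw [Ideal.span_le]
    rintro _ ⟨i, rfl⟩
    refine Ideal.subset_span ⟨gen _ i, ?_⟩
    simp only [powHom_gen]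

end Fermat.Agent.RT.TW
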