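import Fermat.Agent.RT.TW.FreeBasis
import Fermat.Agent.RT.GroupRing
import Fermat.Agent.RT.Rigidity

/-!
# `(g - 1) M' = (δ - 1) M'` from the eigenvalue information at a Taylor–Wiles prime

`rigid_free` : `M'` has a basis permuted by the `p`-group `Δ`, `s ∈ Δ`, `g` a commuting operator of
`p`-power order, `g = 1` on the vectors fixed by `s` and `g` has no nonzero fixed vector killed by
`Φ_p(s)`. Then `(s - 1) M' = (g - 1) M'`.
-/

set_option autoImplicit false
set_option linter.unusedSectionVars false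
set_option linter.style.haveILetI false

open Module IsLocalRing

namespace Fermat.Agent.RT.TW

variable {𝒪 : Type*} [CommRing 𝒪] {R' : Type*} [CommRing R'] [IsLocalRing R'] [Algebra 𝒪 R']
  {p : ℕ} [Fact p.Prime] {Δ : Type*} [CommGroup Δ] [Finite Δ] {ι : Type*} [Finite ι]
  {M' : Type*} [AddCommGroup M'] [Module 𝒪 M'] [Module R' M'] [IsScalarTower 𝒪 R' M']

/-- the diamonds as `R'`-linear operators -/
def DR (D : Δ →* Module.End 𝒪 M') (hD : ∀ (x : Δ) (f : R') (z : M'), D x (f • z) = f • D x z) :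
    Δ →* Module.End R' M' where
  toFun x := { toFun := D x, map_add' := map_add (D x), map_smul' := hD x }
  map_one' := by ext z; simp
  map_mul' x y := by ext z; simp

theorem rigid_free (hpR : (p : R') ∈ maximalIdeal R') (hΔ : IsPGroup p Δ)
    (D : Δ →* Module.End 𝒪 M') (hD : ∀ (x : Δ) (f : R') (z : M'), D x (f • z) = f • D x z)
    (b : Basis (Δ × ι) 𝒪 M') (hb : ∀ x k, D x (b (1, k)) = b (x, k))
    (hpt : ∀ z : M', (p : R') • z = 0 → z = 0) {s : Δ} {a : ℕ} (hs : orderOf s = p ^ (a + 1))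
    {g : R'} {N : ℕ} (hg : g ^ p ^ N = 1) (E1 : ∀ z, D s z = z → g • z = z)
    (E2 : ∀ z, ∑ j ∈ Finset.range p, D (s ^ j) z = 0 → g • z = z → z = 0) :
    (∀ y, ∃ x, D s y - y = (g - 1) • x) ∧ ∀ x, ∃ y, (g - 1) • x = D s y - y := by
  classical
  have hp : p.Prime := Fact.out
  letI : Module (MonoidAlgebra R' Δ) M' := Module.compHom M'
    (MonoidAlgebra.lift R' (Module.End R' M') Δ (DR D hD)).toRingHom
  have hsm : ∀ (l : MonoidAlgebra R' Δ) (z : M'), l • z =
    MonoidAlgebra.lift R' (Module.End R' M') Δ (DR D hD) l z := fun _ _ => rfl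
  haveI : IsScalarTower R' (MonoidAlgebra R' Δ) M' := ⟨fun c l z => by
    rw [hsm, hsm, map_smul]; rfl⟩
  haveI : IsLocalRing (MonoidAlgebra R' Δ) := GR.isLocalRing_monoidAlgebra hΔ hpR
  haveI : Module.Finite 𝒪 M' := Module.Finite.of_basis b
  haveI : Module.Finite R' M' := Module.Finite.of_restrictScalars_finite 𝒪 _ _
  haveI : Module.Finite (MonoidAlgebra R' Δ) M' := Module.Finite.of_restrictScalars_finite R' _ _
  have hof : ∀ (x : Δ) (z : M'), MonoidAlgebra.of R' Δ x • z = D x z := by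
    intro x z
    rw [hsm, MonoidAlgebra.lift_of]
    rfl
  have halg : ∀ (c : R') (z : M'), algebraMap R' (MonoidAlgebra R' Δ) c • z = c • z := by
    intro c z
    rw [algebraMap_smul]
  have hgD : ∀ (c : R') (x : Δ) (z : M'), c • D x z = D x (c • z) := fun c x z => (hD x c z).symm
  let ε : MonoidAlgebra R' Δ →ₐ[R'] R' := MonoidAlgebra.lift R' R' Δ (1 : Δ →* R')
  have hε : ∀ h : Δ, ε (MonoidAlgebra.of R' Δ h) = 1 := by
    intro h; simp [ε]
  have hpm : (p : MonoidAlgebra R' Δ) ∈ maximalIdeal (MonoidAlgebra R' Δ) := by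
    rw [IsLocalRing.mem_maximalIdeal]
    intro hu
    have h1 : IsUnit (ε (p : MonoidAlgebra R' Δ)) := hu.map ε
    rw [map_natCast] at h1
    exact hpR h1
  have hδ : MonoidAlgebra.of R' Δ s - 1 ∈ maximalIdeal (MonoidAlgebra R' Δ) := by
    rw [IsLocalRing.mem_maximalIdeal]
    intro hu
    have h1 : IsUnit (ε (MonoidAlgebra.of R' Δ s - 1)) := hu.map ε
    rw [map_sub, hε, map_one ε, sub_self] at h1
    exact not_isUnit_zero h1
  have hsub : ∀ (z : M'), (MonoidAlgebra.of R' Δ s - 1) • z = D s z - z := by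
    intro z
    rw [sub_smul, hof, one_smul]
  have hgsub : ∀ (z : M'), (algebraMap R' (MonoidAlgebra R' Δ) g - 1) • z = (g - 1) • z := by
    intro z
    rw [sub_smul, halg, one_smul, sub_smul, one_smul]
  have hΦ : ∀ z : M', (∑ i ∈ Finset.range p, (MonoidAlgebra.of R' Δ s) ^ i) • z =
      ∑ i ∈ Finset.range p, D (s ^ i) z := by
    intro z
    rw [Finset.sum_smul]
    refine Finset.sum_congr rfl fun i _ => ?_
    rw [← map_pow, hof]
  -- the operators `ν`, `Θ`
  let ν : M' → M' := fun z => ∑ i ∈ Finset.range (p ^ a), D ((s ^ p) ^ i) z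
  have hνadd : ∀ z w, ν (z + w) = ν z + ν w := by
    intro z w; simp only [ν, map_add, Finset.sum_add_distrib]
  have hνsub : ∀ z w, ν (z - w) = ν z - ν w := by
    intro z w; simp only [ν, map_sub, Finset.sum_sub_distrib]
  have hνD : ∀ x z, ν (D x z) = D x (ν z) := by
    intro x z
    simp only [ν, map_sum]
    refine Finset.sum_congr rfl fun i _ => ?_
    rw [← Module.End.mul_apply, ← map_mul, mul_comm, map_mul, Module.End.mul_apply]
  have hνg : ∀ (c : R') z, ν (c • z) = c • ν z := by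
    intro c z
    simp only [ν, hD, Finset.smul_sum]
  have hνΦ : ∀ z, ν (∑ l ∈ Finset.range p, D (s ^ l) z) =
      ∑ j ∈ Finset.range (orderOf s), D (s ^ j) z := by
    intro z
    rw [hs, pow_succ', norm_eq]
  have hΦν : ∀ z, ∑ l ∈ Finset.range p, D (s ^ l) (ν z) =
      ∑ j ∈ Finset.range (orderOf s), D (s ^ j) z := by
    intro z
    rw [← hνΦ]
    simp only [← hνD]
    exact (map_sum (AddMonoidHom.mk' ν hνadd) _ _).symm
  have hNs : ∀ z, D s (∑ j ∈ Finset.range (orderOf s), D (s ^ j) z) =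
      ∑ j ∈ Finset.range (orderOf s), D (s ^ j) z := by
    intro z
    rw [map_sum]
    simp only [← Module.End.mul_apply, ← map_mul, ← pow_succ']
    have h1 := Finset.sum_range_succ' (fun j => D (s ^ j) z) (orderOf s)
    have h2 := Finset.sum_range_succ (fun j => D (s ^ j) z) (orderOf s)
    rw [h2] at h1
    simpa [pow_orderOf_eq_one] using h1.symm
  have hfix : ∀ z : M', (∃ y : M', z = (∑ i ∈ Finset.range p, (MonoidAlgebra.of R' Δ s) ^ i) • y) ↔
      D s (ν z) = ν z := by
    intro z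
    constructor
    · rintro ⟨y, rfl⟩
      rw [hΦ, hνΦ, hNs]
    · intro h
      obtain ⟨y, hy⟩ := exists_phi_of_fixed hb hp s hs h
      exact ⟨y, by rw [hΦ, ← hy]⟩
  -- the four hypotheses
  have h3 : ∀ x : M', (∃ y : M', (MonoidAlgebra.of R' Δ s - 1) • x =
      (∑ i ∈ Finset.range p, (MonoidAlgebra.of R' Δ s) ^ i) • y) →
      ∃ y : M', x = (∑ i ∈ Finset.range p, (MonoidAlgebra.of R' Δ s) ^ i) • y := by
    intro x h
    rw [hfix] at h ⊢
    rw [hsub, hνsub, hνD] at h
    -- `w = (s - 1) ν x` is fixed by `s` and killed by `Φ`, so `p w = 0`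
    set w := D s (ν x) - ν x with hw
    have h1 : ∀ j : ℕ, D (s ^ j) w = w := by
      intro j
      induction j with
      | zero => simp
      | succ j ih => rw [pow_succ, map_mul, Module.End.mul_apply, h, ih]
    have h2 : ∑ l ∈ Finset.range p, D (s ^ l) w = 0 := by
      rw [hw]
      simp only [map_sub, Finset.sum_sub_distrib]
      rw [hΦν, sub_eq_zero]
      simp only [← hνD]
      have h4 := hΦν (D s x)
      simp only [← hνD] at h4
      rw [h4]
      rw [← hNs x, map_sum]
      refine Finset.sum_congr rfl fun j _ => ?_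
      rw [← Module.End.mul_apply, ← Module.End.mul_apply, ← map_mul, ← map_mul, mul_comm]
    rw [Finset.sum_congr rfl fun j _ => h1 j, Finset.sum_const, Finset.card_range] at h2
    have h5 : w = 0 := hpt w (by rw [Nat.cast_smul_eq_nsmul]; exact h2)
    rw [hw, sub_eq_zero] at h5
    exact h5
  have h4 : ∀ x : M', ∃ y : M', (algebraMap R' (MonoidAlgebra R' Δ) g - 1) • x =
      (MonoidAlgebra.of R' Δ s - 1) • y := by
    intro x
    have h1 := E1 _ (hNs x)
    have h2 : ∑ j ∈ Finset.range (orderOf s), D (s ^ j) ((g - 1) • x) = 0 := by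
      simp only [hD, ← Finset.smul_sum]
      rw [sub_smul, h1, one_smul, sub_self]
    obtain ⟨y, hy⟩ := mem_range_of_norm_eq_zero hb s h2
    refine ⟨y, ?_⟩
    rw [hgsub, hsub, ← hy]
    rfl
  have h6 : ∀ x : M', (∃ y : M', (algebraMap R' (MonoidAlgebra R' Δ) g - 1) • x =
      (∑ i ∈ Finset.range p, (MonoidAlgebra.of R' Δ s) ^ i) • y) →
      ∃ y : M', x = (∑ i ∈ Finset.range p, (MonoidAlgebra.of R' Δ s) ^ i) • y := by
    intro x h
    rw [hfix] at h ⊢
    rw [hgsub, hνg] at h
    set z := D s (ν x) - ν x with hz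
    have h1 : ∑ j ∈ Finset.range p, D (s ^ j) z = 0 := by
      rw [hz]
      simp only [map_sub, Finset.sum_sub_distrib]
      rw [hΦν, sub_eq_zero]
      simp only [← hνD]
      have h4 := hΦν (D s x)
      simp only [← hνD] at h4
      rw [h4]
      rw [← hNs x, map_sum]
      refine Finset.sum_congr rfl fun j _ => ?_
      rw [← Module.End.mul_apply, ← Module.End.mul_apply, ← map_mul, ← map_mul, mul_comm]
    have h2 : g • z = z := by
      rw [hD, sub_smul, sub_smul, one_smul, one_smul] at h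
      rw [hz, smul_sub]
      rw [sub_eq_sub_iff_add_eq_add] at h ⊢
      rw [h, add_comm]
    have h5 := E2 z h1 h2
    rw [hz, sub_eq_zero] at h5
    exact h5
  refine ⟨fun y => ?_, fun x => ?_⟩
  · obtain ⟨x, hx⟩ := Rigid.rigidity hp hpm hδ h3 h4 (N := N) (fun x => ⟨0, by
      rw [← map_pow, hg, map_one, sub_self, zero_smul, smul_zero]⟩) h6 y
    exact ⟨x, by rw [← hsub, hx, hgsub]⟩
  · obtain ⟨y, hy⟩ := h4 x
    exact ⟨y, by rw [← hgsub, hy, hsub]⟩

end Fermat.Agent.RT.TW
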