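import Fermat.Agent.RT.TW.Defs
import Fermat.Agent.RT.TW.Rebase
import Fermat.Agent.RT.TW.RigidFree

/-!
# From the Hecke side input to patching levels
-/

set_option autoImplicit false
set_option linter.unusedSectionVars false
set_option linter.style.haveILetI false

open Module IsLocalRing

namespace Fermat.Agent.RT.TW

open Fermat.Agent.RT.ULim Fermat.Agent.RT.MvEval Fermat.Agent.RT.Patch Fermat.Agent.RT.GroupAlg

section Abstract

variable {𝒪 : Type*} [CommRing 𝒪] {Δ : Type*} [CommGroup Δ] {M' : Type*} [AddCommGroup M']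
  [Module 𝒪 M'] (D : Δ →* Module.End 𝒪 M') {I : Type*} (δ : I → Δ)

theorem sub_mem_iSup (hcl : Subgroup.closure (Set.range δ) = ⊤) (x : Δ) (z : M') :
    D x z - z ∈ ⨆ i, LinearMap.range (D (δ i) - 1) := by
  have hx : x ∈ Subgroup.closure (Set.range δ) := by rw [hcl]; trivial
  induction hx using Subgroup.closure_induction generalizing z with
  | mem x hx =>
    obtain ⟨i, rfl⟩ := hx
    exact (le_iSup (fun i => LinearMap.range (D (δ i) - 1)) i) ⟨z, rfl⟩
  | one => simp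
  | mul x y _ _ hx hy =>
    have : D (x * y) z - z = (D x (D y z) - D y z) + (D y z - z) := by
      rw [map_mul, Module.End.mul_apply]; abel
    rw [this]
    exact add_mem (hx _) (hy _)
  | inv x _ hx =>
    have h1 : D x (D x⁻¹ z) = z := by
      rw [← Module.End.mul_apply, ← map_mul, mul_inv_cancel, map_one, Module.End.one_apply]
    have : D x⁻¹ z - z = -(D x (D x⁻¹ z) - D x⁻¹ z) := by rw [h1]; abel
    rw [this]
    exact neg_mem (hx _)

end Abstract

section Core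

variable {𝒪 : Type} [CommRing 𝒪] [IsLocalRing 𝒪] [IsNoetherianRing 𝒪]
    [IsAdicComplete (maximalIdeal 𝒪) 𝒪] [IsDomain 𝒪] {p : ℕ} [Fact p.Prime]
    (hp𝒪 : (p : 𝒪) ∈ maximalIdeal 𝒪) (hp0 : (p : 𝒪) ≠ 0) {r : ℕ} (a : Fin r → ℕ)
    (ha : ∀ i, 0 < a i) {R' : Type} [CommRing R'] [IsLocalRing R'] [Algebra 𝒪 R']
    [IsLocalHom (algebraMap 𝒪 R')]
    (g : Fin r → R') (hgp : ∀ i, g i ^ p ^ a i = 1)
    {M' : Type} [AddCommGroup M'] [Module 𝒪 M'] [Module R' M'] [IsScalarTower 𝒪 R' M']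
    {Δ : Type} [CommGroup Δ] [Finite Δ] (δ : Fin r → Δ) (hord : ∀ i, orderOf (δ i) = p ^ a i)
    (hcl : Subgroup.closure (Set.range δ) = ⊤) (hcard : Nat.card Δ = ∏ i, p ^ a i)
    (D : Δ →* Module.End 𝒪 M') (hD : ∀ (x : Δ) (f : R') (z : M'), D x (f • z) = f • D x z)
    {ι : Type} [Finite ι] (b : Module.Basis (Δ × ι) 𝒪 M') (hb : ∀ x k, D x (b (1, k)) = b (x, k))
    (E1 : ∀ i z, D (δ i) z = z → g i • z = z)
    (E2 : ∀ i z, ∑ j ∈ Finset.range p, D (δ i ^ j) z = 0 → g i • z = z → z = 0)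

include hp𝒪 in
theorem p_mem : (p : R') ∈ maximalIdeal R' := by
  have h1 := (IsLocalRing.local_hom_TFAE (algebraMap 𝒪 R')).out 0 2
  have h2 : (maximalIdeal 𝒪).map (algebraMap 𝒪 R') ≤ maximalIdeal R' := h1.mp inferInstance
  have h3 := h2 (Ideal.mem_map_of_mem _ hp𝒪)
  rwa [map_natCast] at h3

include hcard in
theorem isPGroup_of_card : IsPGroup p Δ := by
  apply IsPGroup.of_card (n := ∑ i, a i)
  rw [hcard, Finset.prod_pow_eq_pow_sum]

include hp𝒪 hp0 ha hgp hord hcard hD hb E1 E2 in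
/-- `(δ i - 1) M' ⊆ (g i - 1) M'` -/
theorem diamond_le (i : Fin r) (y : M') : ∃ x, D (δ i) y - y = (g i - 1) • x := by
  obtain ⟨k, hk⟩ : ∃ k, a i = k + 1 := ⟨a i - 1, by have := ha i; omega⟩
  have hpt : ∀ z : M', (p : R') • z = 0 → z = 0 := by
    intro z hz
    have h1 : (p : 𝒪) • z = 0 := by
      rw [← algebraMap_smul R' (p : 𝒪) z, map_natCast]
      exact hz
    haveI : Module.Free 𝒪 M' := Module.Free.of_basis b
    exact (smul_eq_zero.mp h1).resolve_left hp0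
  exact (rigid_free (p_mem hp𝒪) (isPGroup_of_card a hcard) D hD b hb hpt (s := δ i) (a := k)
      (by rw [hord, hk]) (hgp i) (E1 i) (E2 i)).1 y

include hp𝒪 hp0 ha hgp hord hcard hD hb E1 E2 in
theorem mem_smul_of_mem_iSup {z : M'} (hz : z ∈ (⨆ i, LinearMap.range (D (δ i) - 1))) :
    z ∈ (Ideal.span (Set.range fun i => g i - 1)) • (⊤ : Submodule R' M') := by
  set N : Submodule R' M' := (Ideal.span (Set.range fun i => g i - 1)) • (⊤ : Submodule R' M')
    with hN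
  have h0 : ∀ i (x : M'), (g i - 1) • x ∈ N := fun i x =>
    Submodule.smul_mem_smul (Ideal.subset_span (Set.mem_range_self i)) trivial
  have h1 : (⨆ i, LinearMap.range (D (δ i) - 1)) ≤ N.restrictScalars 𝒪 := by
    refine iSup_le fun i => ?_
    rintro _ ⟨y, rfl⟩
    obtain ⟨x, hx⟩ := diamond_le hp𝒪 hp0 a ha g hgp δ hord hcard D hD b hb E1 E2 i y
    rw [Submodule.restrictScalars_mem, LinearMap.sub_apply, Module.End.one_apply, hx]
    exact h0 i x
  exact h1 hz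

include hb hcl in
theorem exists_coeffs [Fintype Δ] [Fintype ι] (m : M') :
    m - ∑ k, (∑ x, b.repr m (x, k)) • b (1, k) ∈ (⨆ i, LinearMap.range (D (δ i) - 1)) := by
  have h1 : m - ∑ k, (∑ x, b.repr m (x, k)) • b (1, k) =
      ∑ k, ∑ x, b.repr m (x, k) • (D x (b (1, k)) - b (1, k)) := by
    have h2 : m = ∑ k, ∑ x, b.repr m (x, k) • b (x, k) := by
      conv_lhs => rw [← b.sum_repr m, Fintype.sum_prod_type, Finset.sum_comm]
    conv_lhs => lhs; rw [h2]
    rw [← Finset.sum_sub_distrib]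
    refine Finset.sum_congr rfl fun k _ => ?_
    simp only [smul_sub, Finset.sum_sub_distrib, hb]
    rw [← Finset.sum_smul]
  rw [h1]
  exact Submodule.sum_mem _ fun k _ => Submodule.sum_mem _ fun x _ =>
    Submodule.smul_mem _ _ (sub_mem_iSup D δ hcl x _)

include hp𝒪 hp0 ha hgp hord hcl hcard hD hb E1 E2 in
/-- **Patching levels from the diamonds.** -/
theorem exists_level_core [IsAdicComplete (maximalIdeal R') R']
    (γ : MvPowerSeries (Fin r) 𝒪 →ₐ[𝒪] R') (hγ : Function.Surjective γ)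
    (hg : ∀ i, g i - 1 ∈ maximalIdeal R')
    {R : Type} [CommRing R] [Algebra 𝒪 R] {M : Type} [AddCommGroup M] [Module R M]
    (πR : R' →ₐ[𝒪] R) (hπR : Function.Surjective πR) (hπg : ∀ i, πR (g i) = 1)
    (π : M' →+ M) (hπs : Function.Surjective π) (hπ : ∀ (f : R') (z : M'), π (f • z) = πR f • π z)
    (hker : ∀ z, π z = 0 → z ∈ ⨆ i, LinearMap.range (D (δ i) - 1)) :
    Nonempty (Algebra.PatchingLevel 𝒪 r R M (idealJ 𝒪 p a)) := by
  classical
  haveI : Fintype ι := Fintype.ofFinite _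
  haveI : Fintype Δ := Fintype.ofFinite _
  haveI : Module.Finite 𝒪 M' := Module.Finite.of_basis b
  haveI : Module.Free 𝒪 M' := Module.Free.of_basis b
  have hrank : Module.finrank 𝒪 M' = Fintype.card ι * ∏ i, p ^ a i := by
    rw [Module.finrank_eq_card_basis b, Fintype.card_prod, mul_comm]
    congr 1
    rw [← hcard, Nat.card_eq_fintype_card]
  let e := (Fintype.equivFin ι).symm
  refine exists_level_rebase hp𝒪 a hrank γ hγ g hg hgp (fun j => b (1, e j)) ?_ πR hπR hπg π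
    hπ hπs (fun z hz => mem_smul_of_mem_iSup hp𝒪 hp0 a ha g hgp δ hord hcard D hD b hb E1 E2
      (hker z hz))
  intro m
  refine ⟨fun j => ∑ x, b.repr m (x, e j), ?_⟩
  have h1 := exists_coeffs δ hcl D b hb m
  rw [← Equiv.sum_comp e (fun k => (∑ x, b.repr m (x, k)) • b (1, k))] at h1
  exact mem_smul_of_mem_iSup hp𝒪 hp0 a ha g hgp δ hord hcard D hD b hb E1 E2 h1

end Core

/-- **Patching levels from the Hecke side input.** -/
theorem TWHecke.exists_level {𝒪 : Type} [CommRing 𝒪] [IsLocalRing 𝒪] [IsNoetherianRing 𝒪]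
    [IsAdicComplete (maximalIdeal 𝒪) 𝒪] [IsDomain 𝒪] {p : ℕ} [Fact p.Prime]
    (hp𝒪 : (p : 𝒪) ∈ maximalIdeal 𝒪) (hp0 : (p : 𝒪) ≠ 0) {r : ℕ} {a : Fin r → ℕ}
    (ha : ∀ i, 0 < a i) {R' : Type} [CommRing R'] [IsLocalRing R'] [Algebra 𝒪 R']
    [IsLocalHom (algebraMap 𝒪 R')] [IsAdicComplete (maximalIdeal R') R']
    (γ : MvPowerSeries (Fin r) 𝒪 →ₐ[𝒪] R') (hγ : Function.Surjective γ)
    {g : Fin r → R'} (hg : ∀ i, g i - 1 ∈ maximalIdeal R') (hgp : ∀ i, g i ^ p ^ a i = 1)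
    {R : Type} [CommRing R] [Algebra 𝒪 R] {M : Type} [AddCommGroup M] [Module R M]
    {πR : R' →ₐ[𝒪] R} (hπR : Function.Surjective πR) (hπg : ∀ i, πR (g i) = 1)
    (H : TWHecke 𝒪 p a g πR M) :
    Nonempty (Algebra.PatchingLevel 𝒪 r R M (idealJ 𝒪 p a)) := by
  obtain ⟨M', Δ, δ, h1, h2, h3, D, h4, ι, b, h5, E1, E2, π, h6, h7, h8⟩ := H
  exact exists_level_core hp𝒪 hp0 a ha g hgp δ h1 h2 h3 D h4 b h5 E1 E2 γ hγ hg πR hπR hπg π h6
    h7 h8

end Fermat.Agent.RT.TW
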