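import Fermat.Agent.RT.TW.Level
import Fermat.Agent.RT.PatchCI
import Fermat.Agent.RT.PStep.Surj
import Fermat.Agent.RT.Wiring.BC
import Fermat.Agent.FrobExists

/-!
# TW-level assembly (helper57): the main theorem

`main`: the conclusion of `S56` (`TWPrimes`) and the Hecke side input `TWInput` imply that the
deformation ring of the base level is a complete intersection, finite and free over `𝒪`, and that
the Hecke module of the base level is free over it.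
-/

set_option autoImplicit false
set_option linter.unusedSectionVars false
set_option linter.style.haveILetI false

open Module IsLocalRing Polynomial

namespace Fermat.Agent.RT.TW

open Fermat.Agent.RT.ULim Fermat.Agent.RT.MvEval Fermat.Agent.RT.Patch Fermat.Agent.RT.GroupAlg
  Fermat.Agent.UDef Fermat.Agent.RT.TWInertia Fermat.Agent.RT.Wiring Fermat.Agent.DefCond

variable {𝒪 : Type} [CommRing 𝒪] [IsDomain 𝒪] [IsDiscreteValuationRing 𝒪]
  [IsAdicComplete (maximalIdeal 𝒪) 𝒪]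

/-- The conclusion of `S56` for the condition of type `t` (`t = flat, strict`). -/
def TWPrimes (t : PType) (p : ℕ) (ρbar : ResidualGaloisRep (ResidueField 𝒪)) (S Smin : Finset ℕ) :
    Prop :=
  ∃ r : ℕ, ∀ n : ℕ, ∃ qv : Fin r → ℕ, Function.Injective qv ∧
    (∀ i, (qv i).Prime ∧ qv i ∉ S ∧ p ^ (n + 1) ∣ qv i - 1) ∧
    (∀ i, ∀ P : ValuationSubring (AlgebraicClosure ℚ), P.LiesOverPrime (qv i) →
      ∀ φ : AlgebraicClosure ℚ ≃ₐ[ℚ] AlgebraicClosure ℚ, P.IsFrobeniusAt φ (qv i) →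
        ∃ α β : ResidueField 𝒪, α ≠ β ∧ LinearMap.charpoly (ρbar.ρ φ) = (X - C α) * (X - C β)) ∧
    ∀ DQ : GaloisRep.DeformationRingData 𝒪 ρbar
        (dCond t 𝒪 p (Smin ∪ Finset.univ.image qv) Smin),
      ∃ γ : MvPowerSeries (Fin r) 𝒪 →ₐ[𝒪] DQ.R, Function.Surjective γ

variable {ρbar : ResidualGaloisRep (ResidueField 𝒪)}

/-- The Taylor–Wiles set attached to the primes of `S56`. -/
theorem exists_TWSet {p : ℕ} (hp : p.Prime) {S : Finset ℕ} {n r : ℕ} {qv : Fin r → ℕ}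
    (hinj : Function.Injective qv)
    (hqv : ∀ i, (qv i).Prime ∧ qv i ∉ S ∧ p ^ (n + 1) ∣ qv i - 1)
    (hfrob : ∀ i, ∀ P : ValuationSubring (AlgebraicClosure ℚ), P.LiesOverPrime (qv i) →
      ∀ φ : AlgebraicClosure ℚ ≃ₐ[ℚ] AlgebraicClosure ℚ, P.IsFrobeniusAt φ (qv i) →
        ∃ α β : ResidueField 𝒪, α ≠ β ∧
          LinearMap.charpoly (ρbar.ρ φ) = (X - C α) * (X - C β)) :
    ∃ Q : TWSet ρbar p S n r, Q.q = qv := by
  choose P hP using fun i => FrobExists.exists_liesOverPrime (AlgebraicClosure ℚ) (hqv i).1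
  choose φ hφ using fun i => FrobExists.exists_isFrobeniusAt (P i) (hqv i).1 (hP i)
  choose α β hαβ hch using fun i => hfrob i (P i) (hP i) (φ i) (hφ i)
  have hne : ∀ i, qv i - 1 ≠ 0 := fun i => by
    have := (hqv i).1.two_le
    omega
  haveI : Fact p.Prime := ⟨hp⟩
  refine ⟨⟨qv, hinj, fun i => (hqv i).1, fun i => (hqv i).2.1, fun i => padicValNat p (qv i - 1),
    fun i => ?_, fun i => pow_padicValNat_dvd, fun i => pow_succ_padicValNat_not_dvd (hne i), P, hP,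
    φ, hφ, α, β, hαβ, hch⟩, rfl⟩
  have := (padicValNat_dvd_iff_le (hne i)).mp (hqv i).2.2
  omega

/-- **Production of the levels.** -/
theorem exists_level_of_input [Finite (ResidueField 𝒪)] {p : ℕ} (hpf : p.Prime) (hp2 : p ≠ 2)
    (hp𝒪 : (p : 𝒪) ∈ maximalIdeal 𝒪) (hp0 : (p : 𝒪) ≠ 0) (t : PType)
    (habs : ρbar.IsAbsolutelyIrreducible) {S Smin : Finset ℕ} (hpS : p ∈ S) (hSm : Smin ⊆ S)
    (hbar : dCond t 𝒪 p Smin Smin (GaloisRepAdic.ofResidualGaloisRep ρbar))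
    (D₁ : GaloisRep.DeformationRingData 𝒪 ρbar (dCond t 𝒪 p Smin Smin))
    {M : Type} [AddCommGroup M] [Module D₁.R M] (H : TWInput t p S Smin D₁ M) {n r : ℕ}
    {qv : Fin r → ℕ} (hinj : Function.Injective qv)
    (hqv : ∀ i, (qv i).Prime ∧ qv i ∉ S ∧ p ^ (n + 1) ∣ qv i - 1)
    (hfrob : ∀ i, ∀ P : ValuationSubring (AlgebraicClosure ℚ), P.LiesOverPrime (qv i) →
      ∀ φ : AlgebraicClosure ℚ ≃ₐ[ℚ] AlgebraicClosure ℚ, P.IsFrobeniusAt φ (qv i) →
        ∃ α β : ResidueField 𝒪, α ≠ β ∧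
          LinearMap.charpoly (ρbar.ρ φ) = (X - C α) * (X - C β))
    (hγ : ∀ DQ : GaloisRep.DeformationRingData 𝒪 ρbar
        (dCond t 𝒪 p (Smin ∪ Finset.univ.image qv) Smin),
      ∃ γ : MvPowerSeries (Fin r) 𝒪 →ₐ[𝒪] DQ.R, Function.Surjective γ) :
    ∃ a : Fin r → ℕ, (∀ i, n < a i) ∧
      Nonempty (Algebra.PatchingLevel 𝒪 r D₁.R M (idealJ 𝒪 p a)) := by
  haveI : Fact p.Prime := ⟨hpf⟩
  obtain ⟨Q, rfl⟩ := exists_TWSet (ρbar := ρbar) hpf hinj hqv hfrob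
  obtain ⟨DQ⟩ := nonempty_ringData_dCond 𝒪 ρbar habs hpf hp2 t
    (Smin ∪ Finset.univ.image Q.q) Smin (dCond_mono Finset.subset_union_left subset_rfl hbar)
  obtain ⟨γ, hγ⟩ := hγ DQ
  obtain ⟨πR, hπ, hπe⟩ := SelUnram.exists_canonical D₁ DQ
    (dCond_mono Finset.subset_union_left subset_rfl D₁.isOfType)
  have hne : ∀ i, p ≠ Q.q i := fun i h => Q.not_mem i (h ▸ hpS)
  have hdet : DQ.ρ.DetIsCyclotomic p := dCond_det DQ.isOfType
  have hT : ∀ i, ∃ T : Data DQ.ρ (Q.P i) (Q.φ i) (p ^ Q.a i),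
      residue DQ.R T.A = ResidueField.map (algebraMap 𝒪 DQ.R) (Q.α i) ∧
      residue DQ.R T.D = ResidueField.map (algebraMap 𝒪 DQ.R) (Q.β i) := fun i =>
    exists_data DQ hpf (Q.prime i) (hne i) hdet (Q.dvd i) (by have := Q.lt_a i; omega)
      (Q.not_dvd i) (Q.liesOver i) (Q.isFrobenius i)
      (dCond_unr hbar (Q.prime i) (fun h => Q.not_mem i (hSm h))) (Q.α_ne_β i) (Q.charpoly i)
  choose T hTα using hT
  obtain ⟨hsurj, hker⟩ := ker_eq_span D₁ DQ (good_dCond 𝒪 _ Smin t hpf hp2).baseChange Q.q Q.prime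
    (fun A _ _ _ _ ρ => ⟨fun h => ⟨dCond_mono Finset.subset_union_left subset_rfl h, fun i =>
        dCond_unr h (Q.prime i) (fun hi => Q.not_mem i (hSm hi))⟩, fun h => by
      have h1 : ∀ q : ℕ, q.Prime → q ∉ Smin → ρ.IsUnramifiedAt q := by
        intro q hq hqS
        by_cases hqQ : q ∈ Finset.univ.image Q.q
        · obtain ⟨i, -, rfl⟩ := Finset.mem_image.mp hqQ
          exact h.2 i
        · exact dCond_unr h.1 hq (fun h' => (Finset.mem_union.mp h').elim hqS hqQ)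
      have h2 := h.1
      refine ⟨?_, h2.2⟩
      have h3 := h2.1
      cases t with
      | flat => exact ⟨h3.1, h3.2.1, h1⟩
      | strict => exact ⟨h3.1, h3.2.1, h1⟩
      | ord => exact ⟨h3.1, h3.2.1, h1⟩⟩)
    πR hπ hπe Q.P Q.liesOver Q.φ (fun i => p ^ Q.a i) T
  obtain ⟨H⟩ := H r n Q DQ πR hπ hπe T hTα
  refine ⟨Q.a, Q.lt_a, H.exists_level hp𝒪 hp0 (fun i => (Nat.zero_le n).trans_lt (Q.lt_a i)) γ hγ
    (fun i => (T i).g_sub_one_mem) (fun i => ?_) hsurj fun i => ?_⟩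
  · rw [← Units.val_pow_eq_pow_val, (T i).g_pow, Units.val_one]
  · have h1 : ((T i).g : DQ.R) - 1 ∈ RingHom.ker πR := by
      rw [hker]
      exact Ideal.subset_span ⟨i, rfl⟩
    rw [RingHom.mem_ker, map_sub, map_one, sub_eq_zero] at h1
    exact h1

/-- **The main theorem of the TW-level assembly.** -/
theorem main [Finite (ResidueField 𝒪)] {p : ℕ} (hpf : p.Prime) (hp2 : p ≠ 2)
    (hp𝒪 : (p : 𝒪) ∈ maximalIdeal 𝒪) (hp0 : (p : 𝒪) ≠ 0) (t : PType)
    (habs : ρbar.IsAbsolutelyIrreducible) {S Smin : Finset ℕ} (hpS : p ∈ S) (hSm : Smin ⊆ S)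
    (hbar : dCond t 𝒪 p Smin Smin (GaloisRepAdic.ofResidualGaloisRep ρbar))
    (D₁ : GaloisRep.DeformationRingData 𝒪 ρbar (dCond t 𝒪 p Smin Smin))
    {M : Type} [AddCommGroup M] [Module D₁.R M] [Module 𝒪 M] [IsScalarTower 𝒪 D₁.R M]
    [Nontrivial M] (hprimes : TWPrimes t p ρbar S Smin) (H : TWInput t p S Smin D₁ M) :
    NC.IsCI 𝒪 D₁.R ∧ Module.Finite 𝒪 D₁.R ∧ Module.Free 𝒪 D₁.R ∧ Module.Free D₁.R M ∧
      Module.annihilator D₁.R M = ⊥ := by
  obtain ⟨r, h⟩ := hprimes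
  have h' : ∀ n : ℕ, ∃ a : Fin r → ℕ, (∀ i, n < a i) ∧
      Nonempty (Algebra.PatchingLevel 𝒪 r D₁.R M (idealJ 𝒪 p a)) := by
    intro n
    obtain ⟨qv, hinj, hqv, hfrob, hγ⟩ := h n
    exact exists_level_of_input hpf hp2 hp𝒪 hp0 t habs hpS hSm hbar D₁ H hinj hqv hfrob hγ
  choose a ha L using h'
  refine main_of_tendsto (fun n => (L n).some)
    (fun n f hf => TWLevel.constantCoeff_eq_zero_of_mem_idealJ hf) fun k => ?_
  filter_upwards [Filter.eventually_ge_atTop k] with n hn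
  exact TWLevel.idealJ_le_pow hp𝒪 fun i => hn.trans (ha n i).le

end Fermat.Agent.RT.TW
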